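import Fermat.Agent.Jac.Geom.FrameExists

/-!
Every point of the big cell comes from a line bundle.
-/

set_option autoImplicit false
set_option linter.unusedVariables false

noncomputable section

open CategoryTheory CategoryTheory.Limits AlgebraicGeometry TopologicalSpace Opposite NeronModelInfra
open AlgebraicGeometry.RelPicard
open scoped TensorProduct

attribute [local instance 2000] HahnSeries.instAlgebra

namespace Fermat.Agent.Jac

universe u

variable {k : Type u} [Field k] {C : Scheme.{u}} {c : C ⟶ Spec (CommRingCat.of k)}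
  {ε : SchemeHomOver (𝟙 (Spec (CommRingCat.of k))) c} (M : CurveModel c ε)
  {A : Type u} [CommRing A] [Algebra k A]

/-- A function `r` with `r W ⊆ R_A` and invertible leading coefficient. -/
theorem exists_monic_annihilator (W : Expansion.Cell M.expansion A) :
    ∃ (d : ℕ) (r : M.expansion.CoordRing A) (p : PowerSeries A),
      PowerSeries.constantCoeff p = 1 ∧
        M.expansion.expA A r * HahnSeries.single (d : ℤ) 1 = HahnSeries.ofPowerSeries ℤ A p ∧
        ∀ x ∈ W.W, M.expansion.expA A r * x ∈ (M.expansion.expA A).range := by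
  classical
  let E := M.expansion
  obtain ⟨n₀, hn₀⟩ := E.exists_pole
  choose f hf1 hf2 using hn₀
  let h : ℕ → LaurentSeries A := fun n => if hn : n₀ ≤ n then E.emb A (f n hn) else 0
  have hs : Staircase (n₀ + 1) h := by
    refine ⟨fun n hn => ?_, fun n hn => ?_⟩
    · simp only [h, dif_pos (show n₀ ≤ n by omega)]
      simp [Expansion.emb, hf1]
    · simp only [h, dif_pos (show n₀ ≤ n by omega)]
      exact (hf2 n _).lmap _
  have hrange : ∀ n, h n ∈ (E.expA A).range := fun n => by
    simp only [h]
    split_ifs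
    · exact expA_mem_emb _
    · exact zero_mem _
  have hmem : ∀ n, n₀ + 1 ≤ n → h n ∈ W.W := fun n _ => by
    obtain ⟨r, hr⟩ := hrange n
    rw [← hr]
    exact W.expA_mem r
  let b : Fin (n₀ + 1) → LaurentSeries A := fun j => W.basis j
  have hdec : ∀ x ∈ W.W, ∃ a : Fin (n₀ + 1) → A, x - ∑ j, a j • b j ∈ (E.expA A).range := by
    intro x hx
    obtain ⟨y, hy, hyp, hys⟩ := hs.reduce W.W hmem hx
    refine ⟨fun j => y.coeff (-(j : ℤ)), ?_⟩
    have hy' : y = ∑ j : Fin (n₀ + 1), y.coeff (-(j : ℤ)) • b j := by
      rw [Fin.sum_univ_eq_sum_range (fun j => y.coeff (-(j : ℤ)) • W.basis j)]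
      exact W.eq_sum_basis hy (hyp.mono (by push_cast; omega))
    rw [← hy']
    exact (Submodule.span_le (p := (E.expA A).range.toSubmodule)).mpr
      (by rintro _ ⟨n, -, rfl⟩; exact hrange n) hys
  let m := n₀ + 1
  let F : E.CoordRing A := E.coordInc A (f m (by omega))
  have hFb : ∀ j, E.expA A F * b j ∈ W.W := fun j => W.expA_mul_mem _ (W.basis_mem _)
  choose Mat hMat using fun j => hdec _ (hFb j)
  let T : Matrix (Fin (n₀ + 1)) (Fin (n₀ + 1)) (E.CoordRing A) :=
    Matrix.scalar (Fin (n₀ + 1)) F - (Matrix.of Mat).map (algebraMap A (E.CoordRing A))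
  have hT : ∀ j, ∑ l, E.expA A (T j l) * b l ∈ (E.expA A).range := by
    intro j
    have : ∑ l, E.expA A (T j l) * b l = E.expA A F * b j - ∑ l, Mat j l • b l := by
      simp only [T, Matrix.sub_apply, map_sub, sub_mul, Finset.sum_sub_distrib,
        Matrix.scalar_apply, Matrix.map_apply, Matrix.of_apply, AlgHom.commutes]
      congr 1
      · rw [Finset.sum_eq_single_of_mem j (Finset.mem_univ j)]
        · simp
        · intro l _ hl; simp [Ne.symm hl]
      · refine Finset.sum_congr rfl fun l _ => ?_
        rw [← Algebra.smul_def]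
    rw [this]
    exact hMat j
  have hdet : ∀ j, E.expA A T.det * b j ∈ (E.expA A).range := by
    intro j
    have : E.expA A T.det * b j = ∑ i, E.expA A (T.adjugate j i) * ∑ l, E.expA A (T i l) * b l := by
      have hadj : ∀ l, ∑ i, T.adjugate j i * T i l = if j = l then T.det else 0 := fun l => by
        rw [← Matrix.mul_apply, Matrix.adjugate_mul]
        simp [Matrix.one_apply]
      simp only [Finset.mul_sum, ← mul_assoc, ← map_mul]
      rw [Finset.sum_comm]
      simp only [← Finset.sum_mul, ← map_sum, hadj]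
      rw [Finset.sum_eq_single_of_mem j (Finset.mem_univ j)]
      · simp
      · intro l _ hl; simp [Ne.symm hl]
    rw [this]
    exact sum_mem fun i _ => mul_mem ⟨_, rfl⟩ (hT i)
  -- leading coefficient
  obtain ⟨p₀, hp₀⟩ := exists_ofPowerSeries
    (x := E.expA A F * HahnSeries.single (m : ℤ) (1 : A)) (fun i hi => by
      rw [show i = (i - m) + m by ring, HahnSeries.coeff_mul_single_add, mul_one,
        E.expA_coordInc]
      exact (hf2 m _).lmap _ (i - m) (by omega))
  have hp₀c : PowerSeries.constantCoeff p₀ = 1 := by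
    rw [← PowerSeries.coeff_zero_eq_constantCoeff_apply,
      ← HahnSeries.ofPowerSeries_apply_coeff (Γ := ℤ), hp₀, Nat.cast_zero,
      show (0 : ℤ) = -(m : ℤ) + m by ring, HahnSeries.coeff_mul_single_add, mul_one,
      E.expA_coordInc]
    simp [Expansion.emb, hf1]
  let P : Matrix (Fin (n₀ + 1)) (Fin (n₀ + 1)) (PowerSeries A) :=
    Matrix.scalar (Fin (n₀ + 1)) p₀ - (PowerSeries.X : PowerSeries A) ^ m • (Matrix.of Mat).map (PowerSeries.C (R := A))
  refine ⟨m * (n₀ + 1), T.det, P.det, ?_, ?_, ?_⟩
  · rw [RingHom.map_det]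
    have : (PowerSeries.constantCoeff).mapMatrix P = 1 := by
      ext i l
      rcases eq_or_ne i l with rfl | hil <;> simp [P, m, *]
    rw [this, Matrix.det_one]
  · have hP : (HahnSeries.ofPowerSeries ℤ A).mapMatrix P =
        HahnSeries.single (m : ℤ) (1 : A) • (E.expA A : E.CoordRing A →+* LaurentSeries A).mapMatrix T := by
      ext i l
      have e1 : HahnSeries.ofPowerSeries ℤ A (PowerSeries.X ^ m) =
          HahnSeries.single (m : ℤ) (1 : A) := HahnSeries.ofPowerSeries_X_pow m
      rcases eq_or_ne i l with rfl | hil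
      · simp only [P, T, RingHom.mapMatrix_apply, Matrix.map_apply, Matrix.sub_apply,
          Matrix.smul_apply, Matrix.scalar_apply, Matrix.diagonal_apply_eq, Matrix.of_apply,
          map_sub, smul_eq_mul, map_mul, e1, hp₀, mul_sub, RingHom.coe_coe, AlgHom.commutes,
          HahnSeries.ofPowerSeries_C, HahnSeries.algebraMap_apply, Algebra.algebraMap_self,
          RingHom.id_apply]
        ring
      · simp only [P, T, RingHom.mapMatrix_apply, Matrix.map_apply, Matrix.sub_apply,
          Matrix.smul_apply, Matrix.scalar_apply, Matrix.diagonal_apply_ne _ hil, Matrix.of_apply,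
          map_sub, map_zero, smul_eq_mul, map_mul, e1, mul_sub, RingHom.coe_coe, AlgHom.commutes,
          HahnSeries.ofPowerSeries_C, HahnSeries.algebraMap_apply, Algebra.algebraMap_self,
          RingHom.id_apply, mul_zero]
    have e2 : HahnSeries.single ((m * (n₀ + 1) : ℕ) : ℤ) (1 : A) =
        HahnSeries.single (m : ℤ) 1 ^ (n₀ + 1) := by
      rw [HahnSeries.single_pow, one_pow, nsmul_eq_mul]
      congr 1
    rw [RingHom.map_det, hP, Matrix.det_smul, Fintype.card_fin, ← RingHom.map_det, e2]
    exact mul_comm _ _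
  · intro x hx
    obtain ⟨a, ha⟩ := hdec x hx
    rw [← sub_add_cancel x (∑ j, a j • b j), mul_add]
    refine add_mem (mul_mem ⟨_, rfl⟩ ha) ?_
    rw [Finset.mul_sum]
    refine sum_mem fun j _ => ?_
    rw [mul_smul_comm]
    exact Expansion.range_smul (hdet j) _

/-- Fractions for a cell: numerators and denominators. -/
structure CellData (W : Expansion.Cell M.expansion A) where
  n : ℕ
  num : Option (Fin n) → Option (Fin n) → Γ(curveOver c A, M.D0 A)
  qv : Option (Fin n) → LaurentSeries A
  wv : Option (Fin n) → LaurentSeries A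
  exp_num : ∀ a b, M.exp0A A (num a b) = qv a * wv b
  sum_one : ∑ i, qv (some i) * wv (some i) = 1
  wv_none : wv none = 1
  mem_W : ∀ a, wv a ∈ W.W
  span_W : ∀ x ∈ W.W, ∀ i, qv (some i) * x ∈ (M.expansion.expA A).range
  d : ℕ
  h : Γ(curveOver c A, M.D1 A)
  unit_h : IsUnit (M.exp1A A h)
  res_h : res (M.D01_le1 A) h = res (M.D01_le0 A) (num none none) * res (M.D01_le1 A) (M.tA A) ^ d

theorem exists_cellData (W : Expansion.Cell M.expansion A) : Nonempty (CellData M W) := by
  classical
  obtain ⟨n, q, w, hw, hq, hsum⟩ := W.exists_invertible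
  obtain ⟨d, r, p, hp, hrp, hr⟩ := exists_monic_annihilator M W
  let qv : Option (Fin n) → LaurentSeries A := fun a =>
    a.elim (M.expansion.expA A r) fun i => M.expansion.expA A (q i)
  let wv : Option (Fin n) → LaurentSeries A := fun a => a.elim 1 w
  have hwv : ∀ a, wv a ∈ W.W := by
    rintro (_ | i)
    · exact W.one_mem
    · exact hw i
  have hmem : ∀ a b, qv a * wv b ∈ (M.expansion.expA A).range := by
    intro a b
    rcases a with _ | i
    · exact hr _ (hwv b)
    · obtain ⟨r', hr'⟩ := hq i _ (hwv b)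
      exact ⟨r', hr'⟩
  have hnum : ∀ a b, ∃ x, M.exp0A A x = qv a * wv b := fun a b => by
    obtain ⟨r', hr'⟩ := hmem a b
    exact ⟨M.coordFun A r', (M.exp0A_coordFun r').trans hr'⟩
  choose num hnum using hnum
  let h01 := res (M.D01_le0 A) (num none none) * res (M.D01_le1 A) (M.tA A) ^ d
  have hexp : M.exp01A A h01 = HahnSeries.ofPowerSeries ℤ A p := by
    rw [map_mul, map_pow, CurveModel.exp01A_res0, CurveModel.exp01A_res1, CurveModel.exp1A_tA,
      hnum, ← map_pow, HahnSeries.ofPowerSeries_X_pow, ← hrp]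
    change M.expansion.expA A r * 1 * _ = _
    rw [mul_one]
  obtain ⟨h, hh⟩ := M.exists_extend h01 (hexp ▸ poleLE_ofPowerSeries p)
  have hh1 : M.exp1A A h = p := HahnSeries.ofPowerSeries_injective (Γ := ℤ) (by
    rw [← CurveModel.exp01A_res1, hh, hexp])
  exact ⟨{
    n := n, num := num, qv := qv, wv := wv, exp_num := hnum, sum_one := hsum, wv_none := rfl
    mem_W := hwv
    span_W := fun x hx i => by
      obtain ⟨r', hr'⟩ := hq i x hx
      exact ⟨r', hr'⟩
    d := d, h := h
    unit_h := by rw [hh1, PowerSeries.isUnit_iff_constantCoeff, hp]; exact isUnit_one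
    res_h := hh }⟩

namespace CellData

variable {M} {W : Expansion.Cell M.expansion A} (D : CellData M W)

theorem num_mul (a b a' b' : Option (Fin D.n)) :
    D.num a b * D.num a' b' = D.num a b' * D.num a' b := by
  apply M.exp0A_injective
  simp only [map_mul, D.exp_num]
  ring

/-- The opens of the bundle. -/
def opens : Option (Fin D.n) → (curveOver c A).Opens
  | none => (curveOver c A).basicOpen D.h
  | some i => (curveOver c A).basicOpen (D.num (some i) (some i))

theorem some_le (i : Fin D.n) : D.opens (some i) ≤ M.D0 A := Scheme.basicOpen_le _ _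

theorem none_le : D.opens none ≤ M.D1 A := Scheme.basicOpen_le _ _

theorem isUnit_den (a : Option (Fin D.n)) {V : (curveOver c A).Opens} (ha : V ≤ D.opens a)
    (h0 : V ≤ M.D0 A) : IsUnit (res h0 (D.num a a)) := by
  rcases a with _ | i
  · have h01 : V ≤ M.D01 A := (le_inf h0 (ha.trans D.none_le)).trans (M.inf_le_D01 A)
    have hu : IsUnit (res ha (res D.none_le D.h)) :=
      (RingedSpace.isUnit_res_basicOpen _ D.h).map _
    rw [res_res, ← res_res h01 (M.D01_le1 A), D.res_h, map_mul, map_pow, res_res, res_res,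
      IsUnit.mul_iff] at hu
    exact hu.1
  · have hu : IsUnit (res ha (res (D.some_le i) (D.num (some i) (some i)))) :=
      (RingedSpace.isUnit_res_basicOpen _ _).map _
    rwa [res_res] at hu

/-- The ratio of generators. -/
def frac (a b : Option (Fin D.n)) (V : (curveOver c A).Opens) (ha : V ≤ D.opens a)
    (h : a = b ∨ V ≤ M.D0 A) : Γ(curveOver c A, V) :=
  if hab : a = b then 1
  else res (h.resolve_left hab) (D.num a b) *
    ↑(D.isUnit_den a ha (h.resolve_left hab)).unit⁻¹

theorem frac_self (a : Option (Fin D.n)) (V : (curveOver c A).Opens) (ha : V ≤ D.opens a)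
    (h : a = a ∨ V ≤ M.D0 A) : D.frac a a V ha h = 1 := dif_pos rfl

theorem frac_spec (a b : Option (Fin D.n)) (V : (curveOver c A).Opens) (ha : V ≤ D.opens a)
    (h : a = b ∨ V ≤ M.D0 A) (h0 : V ≤ M.D0 A) :
    D.frac a b V ha h * res h0 (D.num a a) = res h0 (D.num a b) := by
  unfold frac
  split_ifs with hab
  · rw [one_mul, hab]
  · rw [mul_assoc, IsUnit.val_inv_mul, mul_one]

theorem res_frac (a b : Option (Fin D.n)) {V V' : (curveOver c A).Opens} (hle : V' ≤ V)
    (ha : V ≤ D.opens a) (h : a = b ∨ V ≤ M.D0 A) :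
    res hle (D.frac a b V ha h) =
      D.frac a b V' (hle.trans ha) (h.imp id hle.trans) := by
  by_cases hab : a = b
  · subst hab
    rw [frac_self, frac_self, map_one]
  · have h0 := h.resolve_left hab
    apply (D.isUnit_den a (hle.trans ha) (hle.trans h0)).mul_right_cancel
    rw [D.frac_spec a b V' _ _ (hle.trans h0), ← res_res hle h0 (D.num a a), ← map_mul,
      D.frac_spec a b V ha h h0, res_res]

theorem le_D0_of_ne {a b : Option (Fin D.n)} (hab : a ≠ b) {V : (curveOver c A).Opens}
    (ha : V ≤ D.opens a) (hb : V ≤ D.opens b) : V ≤ M.D0 A := by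
  rcases a with _ | i
  · rcases b with _ | j
    · exact absurd rfl hab
    · exact hb.trans (D.some_le j)
  · exact ha.trans (D.some_le i)

theorem frac_mul (a b l : Option (Fin D.n)) (V : (curveOver c A).Opens) (ha : V ≤ D.opens a)
    (hb : V ≤ D.opens b) (hab : a = b ∨ V ≤ M.D0 A) (hbl : b = l ∨ V ≤ M.D0 A)
    (hal : a = l ∨ V ≤ M.D0 A) :
    D.frac a b V ha hab * D.frac b l V hb hbl = D.frac a l V ha hal := by
  by_cases h1 : a = b
  · subst h1
    rw [frac_self, one_mul]
  have h0 : V ≤ M.D0 A := hab.resolve_left h1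
  apply (D.isUnit_den a ha h0).mul_right_cancel
  apply (D.isUnit_den b hb h0).mul_right_cancel
  rw [D.frac_spec a l V ha hal h0]
  calc _ = (D.frac a b V ha hab * res h0 (D.num a a)) *
        (D.frac b l V hb hbl * res h0 (D.num b b)) := by ring
    _ = _ := by
        rw [D.frac_spec a b V ha hab h0, D.frac_spec b l V hb hbl h0, ← map_mul, ← map_mul,
          D.num_mul]

theorem cover (x : curveOver c A) : ∃ a, x ∈ D.opens a := by
  by_cases h0 : x ∈ M.D0 A
  · have hsum : ∑ i, D.num (some i) (some i) = 1 := by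
      apply M.exp0A_injective
      simp only [map_sum, D.exp_num, D.sum_one, map_one]
    have hspan : Ideal.span (Set.range fun i => D.num (some i) (some i)) = ⊤ := by
      rw [Ideal.eq_top_iff_one, ← hsum]
      exact sum_mem fun i _ => Ideal.subset_span ⟨i, rfl⟩
    rw [← (M.affineD0 A).iSup_basicOpen_eq_self_iff] at hspan
    obtain ⟨⟨_, i, rfl⟩, hi⟩ := Opens.mem_iSup.mp (hspan.ge h0)
    exact ⟨some i, hi⟩
  · exact ⟨none, M.mem_basicOpen_of_isUnit (PowerSeries.isUnit_iff_constantCoeff.mp D.unit_h)
      ((M.mem_D0_or_D1 A x).resolve_left h0) h0⟩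

/-- The cocycle. -/
def bundle : Cocycle (curveOver c A) (ULift.{u} (Option (Fin D.n))) where
  U a := D.opens a.down
  cover x := let ⟨a, ha⟩ := D.cover x; ⟨⟨a⟩, ha⟩
  g a b V ha hb := D.frac a.down b.down V ha <| by
    by_cases h : a.down = b.down
    · exact Or.inl h
    · exact Or.inr (D.le_D0_of_ne h ha hb)
  res_g a b V V' h ha hb := D.res_frac _ _ h ha _
  g_self a V ha := D.frac_self _ V ha _
  g_mul a b l V ha hb hl := D.frac_mul _ _ _ V ha hb _ _ _

/-- The section `wv b` over the affine part. -/
def gSec (b : Option (Fin D.n)) : Sec D.bundle (M.D0 A) where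
  val a V hW ha := D.frac a.down b V ha (Or.inr hW)
  res_val a V V' h hW ha := D.res_frac _ _ h ha _
  g_val a a' V hW ha ha' :=
    D.frac_mul _ _ _ V ha ha' (Or.inr hW) (Or.inr hW) (Or.inr hW)

/-- The section `qv l` of the dual over the affine part. -/
def hSec (l : Option (Fin D.n)) : Sec D.bundle.inv (M.D0 A) where
  val a V hW ha := res hW (D.num l a.down)
  res_val a V V' h hW ha := res_res _ _ _
  g_val a b V hW ha hb := by
    change D.frac b.down a.down V hb (Or.inr hW) * _ = _
    apply (D.isUnit_den b.down hb hW).mul_right_cancel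
    rw [mul_right_comm, D.frac_spec b.down a.down V hb (Or.inr hW) hW, ← map_mul, ← map_mul, D.num_mul,
      mul_comm]

theorem pair_hSec_gSec (l b : Option (Fin D.n)) :
    Sec.pair (D.hSec l) (D.gSec b) = D.num l b := by
  refine Sec.pair_eq fun a V hW ha => ?_
  change res hW (D.num l b) = res hW (D.num l a.down) * D.frac a.down b V ha (Or.inr hW)
  apply (D.isUnit_den a.down ha hW).mul_right_cancel
  rw [mul_assoc, D.frac_spec a.down b V ha (Or.inr hW) hW, ← map_mul, ← map_mul, D.num_mul]

/-- The dual of the frame. -/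
def etaVal : ∀ (a : Option (Fin D.n)) (V : (curveOver c A).Opens), V ≤ M.D1 A → V ≤ D.opens a →
    Γ(curveOver c A, V)
  | none, V, h1, _ => res h1 D.h
  | some i, V, h1, ha => res ((le_inf (ha.trans (D.some_le i)) h1).trans (M.inf_le_D01 A))
      (res (M.D01_le0 A) (D.num none (some i)) * res (M.D01_le1 A) (M.tA A) ^ D.d)

theorem etaVal_eq (a : Option (Fin D.n)) (V : (curveOver c A).Opens) (h1 : V ≤ M.D1 A)
    (ha : V ≤ D.opens a) (h0 : V ≤ M.D0 A) :
    D.etaVal a V h1 ha = res h0 (D.num none a) * res h1 (M.tA A) ^ D.d := by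
  have h01 : V ≤ M.D01 A := (le_inf h0 h1).trans (M.inf_le_D01 A)
  rcases a with _ | i
  · rw [etaVal, ← res_res h01 (M.D01_le1 A) D.h, D.res_h]
    simp
  · simp [etaVal]

/-- The frame of the bundle. -/
def frame : Frame M D.bundle where
  η :=
    { val := fun a V h1 ha => D.etaVal a.down V h1 ha
      res_val := fun a V V' h h1 ha => by
        obtain ⟨_ | i⟩ := a <;> simp [etaVal]
      g_val := fun a b V h1 ha hb => by
        change D.frac b.down a.down V hb (if h : b.down = a.down then Or.inl h
          else Or.inr (D.le_D0_of_ne h hb ha)) * _ = _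
        by_cases hab : a.down = b.down
        · obtain ⟨a⟩ := a
          obtain ⟨b⟩ := b
          change a = b at hab
          subst hab
          rw [frac_self, one_mul]
        · have h0 := D.le_D0_of_ne hab ha hb
          rw [D.etaVal_eq _ V h1 hb h0, D.etaVal_eq _ V h1 ha h0]
          apply (D.isUnit_den b.down hb h0).mul_right_cancel
          calc _ = (D.frac b.down a.down V hb _ * res h0 (D.num b.down b.down)) *
                res h0 (D.num none b.down) * res h1 (M.tA A) ^ D.d := by ring
            _ = _ := by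
                rw [D.frac_spec b.down a.down V hb _ h0, ← map_mul, D.num_mul, map_mul]
                ring }
  s :=
    { val := fun a V h1 ha => D.frac a.down none V ha <| by
        obtain ⟨_ | i⟩ := a
        · exact Or.inl rfl
        · exact Or.inr (ha.trans (D.some_le i))
      res_val := fun a V V' h h1 ha => D.res_frac _ _ h ha _
      g_val := fun a b V h1 ha hb => D.frac_mul _ _ _ V ha hb
        (if h : a.down = b.down then Or.inl h else Or.inr (D.le_D0_of_ne h ha hb)) _ _ }
  g := D.h
  isUnit_pair := by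
    convert D.unit_h using 2
    refine Sec.pair_eq fun a V h1 ha => ?_
    obtain ⟨_ | i⟩ := a
    · change res h1 D.h = res h1 D.h * D.frac none none V ha (Or.inl rfl)
      rw [frac_self, mul_one]
    · have h0 : V ≤ M.D0 A := ha.trans (D.some_le i)
      have h01 : V ≤ M.D01 A := (le_inf h0 h1).trans (M.inf_le_D01 A)
      change res h1 D.h = D.etaVal (some i) V h1 ha * D.frac (some i) none V ha (Or.inr h0)
      apply (D.isUnit_den (some i) ha h0).mul_right_cancel
      rw [mul_assoc, D.frac_spec (some i) none V ha (Or.inr h0) h0, D.etaVal_eq _ V h1 ha h0,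
        ← res_res h01 (M.D01_le1 A) D.h, D.res_h, map_mul, map_pow, res_res, res_res,
        mul_right_comm, ← map_mul, mul_right_comm (res h0 (D.num none (some i))), ← map_mul,
        D.num_mul]
  isUnit_g := D.unit_h

theorem toLaurent_gSec (b : Option (Fin D.n)) : D.frame.toLaurent (D.gSec b) = D.wv b := by
  have key : Sec.pair (D.frame.η.restrict (M.D01_le1 A)) ((D.gSec b).restrict (M.D01_le0 A)) =
      res (M.D01_le0 A) (D.num none b) * res (M.D01_le1 A) (M.tA A) ^ D.d := by
    refine Sec.pair_eq fun a V hV ha => ?_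
    have h0 : V ≤ M.D0 A := hV.trans (M.D01_le0 A)
    change _ = D.etaVal a.down V (hV.trans (M.D01_le1 A)) ha * D.frac a.down b V ha (Or.inr h0)
    rw [D.etaVal_eq _ V (hV.trans (M.D01_le1 A)) ha h0]
    apply (D.isUnit_den a.down ha h0).mul_right_cancel
    rw [mul_assoc _ (D.frac a.down b V ha (Or.inr h0)), D.frac_spec a.down b V ha (Or.inr h0) h0, map_mul, map_pow,
      res_res, res_res, mul_right_comm, ← map_mul, D.num_mul, map_mul]
    ring
  have hd : (↑D.frame.den : LaurentSeries A) =
      D.qv none * M.exp01A A (res (M.D01_le1 A) (M.tA A)) ^ D.d := by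
    rw [Frame.den_eq]
    change M.exp01A A (res (M.D01_le1 A) D.h) = _
    rw [D.res_h, map_mul, map_pow, CurveModel.exp01A_res0, D.exp_num, D.wv_none, mul_one]
  rw [Frame.toLaurent, key, map_mul, map_pow, CurveModel.exp01A_res0, D.exp_num,
    Units.mul_inv_eq_iff_eq_mul, hd]
  ring

theorem image_frame : D.frame.image = W.W := by
  have hsum : ∑ i : Fin D.n, Sec.pair (D.hSec (some i)) (D.gSec (some i)) = 1 := by
    apply M.exp0A_injective
    simp only [map_sum, map_one, pair_hSec_gSec, D.exp_num, D.sum_one]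
  rw [← D.frame.latticeOf_W _ _ hsum]
  refine le_antisymm (fun x hx => ?_) (fun x hx => ?_)
  · obtain ⟨r, hr⟩ := (D.frame.latticeOf _ _ hsum).W_eq_of_dual.mp hx
    rw [hr]
    refine sum_mem fun i _ => W.expA_mul_mem _ ?_
    change D.frame.toLaurent (D.gSec (some i)) ∈ W.W
    rw [toLaurent_gSec]
    exact D.mem_W _
  · refine (D.frame.latticeOf _ _ hsum).W_eq_of_dual.mpr ?_
    have hq := fun i => D.span_W x hx i
    choose r hr using hq
    refine ⟨r, ?_⟩
    have hr' : ∀ i, M.expansion.expA A (r i) = D.qv (some i) * x := hr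
    change x = ∑ i : Fin D.n, M.expansion.expA A (r i) * D.frame.toLaurent (D.gSec (some i))
    simp only [hr', toLaurent_gSec, mul_right_comm _ x, ← Finset.sum_mul, D.sum_one, one_mul]

end CellData

/-- Every cell is the cell of a class. -/
theorem exists_hasCell (W : Expansion.Cell M.expansion A) : ∃ ξ, HasCell M ξ W := by
  obtain ⟨D⟩ := exists_cellData M W
  exact ⟨_, _, D.bundle, D.frame, rfl, D.image_frame⟩

end Fermat.Agent.Jac
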