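import Fermat.Agent.Jac.Geom.Sections
import Fermat.Agent.Jac.BigCell.Tensor

/-!
The two charts of the curve with coefficients and their expansions at the marked section.
-/

set_option autoImplicit false
set_option linter.unusedVariables false

noncomputable section

open CategoryTheory CategoryTheory.Limits AlgebraicGeometry TopologicalSpace Opposite NeronModelInfra
open AlgebraicGeometry.RelPicard
open scoped TensorProduct

attribute [local instance 2000] HahnSeries.instAlgebra

namespace Fermat.Agent.Jac

universe u

variable {k : Type u} [Field k] {C : Scheme.{u}} {c : C ⟶ Spec (CommRingCat.of k)}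
  {A : Type u} [CommRing A] [Algebra k A]

section General

variable {U : C.Opens} (hU : IsAffineOpen U) {L : Type u} [CommRing L]

/-- A ring map out of the functions on `U_A` is determined by constants and lifted functions. -/
theorem funRingHom_ext {f g : Γ(curveOver c A, openOver c A U) →+* L}
    (hU : IsAffineOpen U)
    (hc : ∀ a, f (constHom c A _ a) = g (constHom c A _ a))
    (hl : ∀ r, f (liftFun c A U r) = g (liftFun c A U r)) : f = g := by
  refine RingHom.ext fun x => ?_
  obtain ⟨y, rfl⟩ := (tensorToFun_bijective c A hU).2 x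
  induction y using TensorProduct.induction_on with
  | zero => simp
  | tmul a r => rw [tensorToFun_tmul, map_mul, map_mul, hc, hl]
  | add y y' h h' => rw [map_add, map_add, map_add, h, h']

/-- The ring map out of the functions on `U_A` with given values. -/
def liftExp (hU : IsAffineOpen U) (a : A →+* L) (χ : FunRing c U →+* L)
    (h : ∀ x : k, χ (algebraMap k (FunRing c U) x) = a (algebraMap k A x)) :
    Γ(curveOver c A, openOver c A U) →+* L :=
  letI : Algebra k L := (a.comp (algebraMap k A)).toAlgebra
  (Algebra.TensorProduct.lift ({ a with commutes' := fun _ => rfl } : A →ₐ[k] L)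
    ({ χ with commutes' := h } : FunRing c U →ₐ[k] L) fun _ _ => Commute.all _ _).toRingHom.comp
    (RingEquiv.ofBijective (tensorToFun c A U) (tensorToFun_bijective c A hU)).symm.toRingHom

theorem liftExp_tensorToFun (a : A →+* L) (χ : FunRing c U →+* L)
    (h : ∀ x : k, χ (algebraMap k (FunRing c U) x) = a (algebraMap k A x)) (x : A) (r : FunRing c U) :
    liftExp hU a χ h (tensorToFun c A U (x ⊗ₜ r)) = a x * χ r := by
  let : Algebra k L := (a.comp (algebraMap k A)).toAlgebra
  have hh := (RingEquiv.ofBijective (tensorToFun c A U)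
    (tensorToFun_bijective c A hU)).symm_apply_apply (x ⊗ₜ r)
  rw [liftExp, RingHom.comp_apply]
  exact (congrArg _ hh).trans rfl

theorem liftExp_constHom (a : A →+* L) (χ : FunRing c U →+* L)
    (h : ∀ x : k, χ (algebraMap k (FunRing c U) x) = a (algebraMap k A x)) (x : A) :
    liftExp hU a χ h (constHom c A _ x) = a x := by
  have e : tensorToFun c A U (x ⊗ₜ (1 : FunRing c U)) = constHom c A _ x := by
    rw [tensorToFun_tmul, map_one, mul_one]
  rw [← e, liftExp_tensorToFun, map_one, mul_one]

theorem liftExp_liftFun (a : A →+* L) (χ : FunRing c U →+* L)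
    (h : ∀ x : k, χ (algebraMap k (FunRing c U) x) = a (algebraMap k A x)) (r : FunRing c U) :
    liftExp hU a χ h (liftFun c A U r) = χ r := by
  have e : tensorToFun c A U ((1 : A) ⊗ₜ r) = liftFun c A U r := by
    rw [tensorToFun_tmul, map_one, one_mul]
  rw [← e, liftExp_tensorToFun, map_one, one_mul]

variable (A)

/-- A Laurent expansion of functions on `U`, with coefficients in `A`. -/
def laurentExp (hU : IsAffineOpen U) (e : FunRing c U →+* LaurentSeries k)
    (he : ∀ x : k, e (algebraMap k (FunRing c U) x) = HahnSeries.C x) :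
    Γ(curveOver c A, openOver c A U) →+* LaurentSeries A :=
  liftExp hU HahnSeries.C ((lmap (algebraMap k A)).comp e) fun x => by simp [he]

variable (e : FunRing c U →+* LaurentSeries k)
  (he : ∀ x : k, e (algebraMap k (FunRing c U) x) = HahnSeries.C x)

theorem laurentExp_constHom (a : A) :
    laurentExp A hU e he (constHom c A _ a) = HahnSeries.C a := liftExp_constHom hU _ _ _ a

theorem laurentExp_liftFun (r : FunRing c U) :
    laurentExp A hU e he (liftFun c A U r) = lmap (algebraMap k A) (e r) :=
  liftExp_liftFun hU _ _ _ r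

theorem laurentExp_injective (hinj : Function.Injective e) :
    Function.Injective (laurentExp A hU e he) := by
  rw [injective_iff_map_eq_zero]
  intro x hx
  obtain ⟨y, rfl⟩ := (tensorToFun_bijective c A hU).2 x
  suffices y = 0 by rw [this, map_zero]
  refine tensor_eq_zero_of_coeff (coeffFunctional e he)
    (fun r hr => hinj (by ext i; rw [map_zero]; exact hr i)) A y fun i => ?_
  have key : ∀ z : A ⊗[k] FunRing c U,
      TensorProduct.rid k A ((coeffFunctional e he i).lTensor A z) =
        (laurentExp A hU e he (tensorToFun c A U z)).coeff i := by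
    intro z
    induction z using TensorProduct.induction_on with
    | zero => simp
    | tmul a r =>
      rw [LinearMap.lTensor_tmul, TensorProduct.rid_tmul, tensorToFun_tmul, map_mul,
        laurentExp_constHom, laurentExp_liftFun, coeff_C_mul', lmap_coeff, Algebra.smul_def, mul_comm]
      rfl
    | add z z' h h' => simp only [map_add, HahnSeries.coeff_add, h, h']
  rw [key, hx, HahnSeries.coeff_zero]

variable {A}

theorem lmap_laurentExp {B : Type u} [CommRing B] [Algebra k B] (φ : A →ₐ[k] B)
    (x : Γ(curveOver c A, openOver c A U)) :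
    lmap (φ : A →+* B) (laurentExp A hU e he x) =
      laurentExp B hU e he (appLEHom (curveMap c φ) (preimage_openOver c φ U) x) := by
  refine RingHom.congr_fun (f := (lmap (φ : A →+* B)).comp (laurentExp A hU e he))
    (g := (laurentExp B hU e he).comp (appLEHom (curveMap c φ) (preimage_openOver c φ U)))
    (funRingHom_ext hU (fun a => ?_) fun r => ?_) x
  · simp only [RingHom.comp_apply, laurentExp_constHom, appLEHom_constHom, lmap_C]
    rfl
  · simp only [RingHom.comp_apply, laurentExp_liftFun, appLEHom_liftFun, lmap_lmap,
      AlgHom.comp_algebraMap]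

end General

namespace CurveModel

variable {ε : SchemeHomOver (𝟙 (Spec (CommRingCat.of k))) c} (M : CurveModel c ε)

/-- The expansion of functions on the affine part. -/
def expansion : Expansion k (FunRing c M.C0) where
  e := M.exp0.comp ((toFunRing c M.C0).symm : FunRing c M.C0 →+* Γ(C, M.C0))
  e_const a := M.exp0_const a
  injective := M.exp0_injective.comp (toFunRing c M.C0).symm.injective
  exists_pole := by
    obtain ⟨n₀, h⟩ := M.exists_pole
    exact ⟨n₀, fun n hn => h n hn⟩
  const_of_no_pole f hf := by
    obtain ⟨a, ha⟩ := M.const_of_no_pole f fun i hi => hf i (by omega)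
    exact ⟨a, ha⟩

instance isDedekindDomain_coordRing (M : CurveModel c ε) (K : Type u) [Field K] [Algebra k K] :
    IsDedekindDomain (M.expansion.CoordRing K) :=
  M.dedekind K

instance finiteType_funRing (M : CurveModel c ε) : Algebra.FiniteType k (FunRing c M.C0) :=
  M.finiteType

theorem affine01 : IsAffineOpen (M.C0 ⊓ M.C1) := M.basicOpen_t ▸ M.affine1.basicOpen M.t

theorem exp0_const' (x : k) : M.expansion.e (algebraMap k (FunRing c M.C0) x) = HahnSeries.C x :=
  M.expansion.e_const x

/-- Expansion of functions on the neighbourhood of the marked point, as Laurent series. -/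
def laurent1 : FunRing c M.C1 →+* LaurentSeries k :=
  ((HahnSeries.ofPowerSeries ℤ k).comp M.exp1).comp
    ((toFunRing c M.C1).symm : FunRing c M.C1 →+* Γ(C, M.C1))

theorem laurent1_const (x : k) :
    M.laurent1 (algebraMap k (FunRing c M.C1) x) = HahnSeries.C x := by
  change HahnSeries.ofPowerSeries ℤ k (M.exp1 (structureHom c M.C1 x)) = _
  rw [M.exp1_const, HahnSeries.ofPowerSeries_C]

/-- Expansion of functions on the punctured neighbourhood. -/
def laurent01 : FunRing c (M.C0 ⊓ M.C1) →+* LaurentSeries k :=
  M.exp01.comp ((toFunRing c (M.C0 ⊓ M.C1)).symm : FunRing c (M.C0 ⊓ M.C1) →+* Γ(C, M.C0 ⊓ M.C1))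

theorem res_structureHom' {U V : C.Opens} (h : V ≤ U) (a : k) :
    res h (structureHom c U a) = structureHom c V a :=
  res_appLEHom c (le_preimage_top c U) h _

theorem laurent01_const (x : k) :
    M.laurent01 (algebraMap k (FunRing c (M.C0 ⊓ M.C1)) x) = HahnSeries.C x := by
  change M.exp01 (structureHom c (M.C0 ⊓ M.C1) x) = _
  rw [← res_structureHom' (inf_le_left : M.C0 ⊓ M.C1 ≤ M.C0)]
  exact (M.exp01_res0 _).trans (M.exp0_const x)

theorem laurent01_injective : Function.Injective M.laurent01 := by
  suffices H : Function.Injective M.exp01 from H.comp (toFunRing c _).symm.injective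
  rw [injective_iff_map_eq_zero]
  intro f hf
  have := M.affine1.isLocalization_basicOpen M.t
  let f' : Γ(C, C.basicOpen M.t) := res M.basicOpen_t.le f
  obtain ⟨n, a, ha⟩ := IsLocalization.Away.surj M.t f'
  have h1 : f * res inf_le_right M.t ^ n = res inf_le_right a := by
    have h2 := congrArg (res M.basicOpen_t.ge) ha
    rw [map_mul, map_pow] at h2
    change res _ (res _ f) * res _ (res (C.basicOpen_le M.t) M.t) ^ n =
      res _ (res (C.basicOpen_le M.t) a) at h2
    simpa using h2
  have h3 := congrArg M.exp01 h1
  rw [map_mul, hf, zero_mul] at h3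
  have ha0 : a = 0 := M.exp1_injective (HahnSeries.ofPowerSeries_injective (Γ := ℤ) (by
    rw [map_zero, map_zero]
    exact (M.exp01_res1 a).symm.trans h3.symm))
  rw [ha0, map_zero] at ha
  have hf' : f' = 0 :=
    (IsLocalization.Away.algebraMap_pow_isUnit M.t n).mul_left_eq_zero.mp ha
  have h4 := congrArg (res M.basicOpen_t.ge) hf'
  simpa [f'] using h4

variable (A)

/-- The affine part with coefficients. -/
abbrev D0 : (curveOver c A).Opens := openOver c A M.C0

/-- The neighbourhood of the marked section with coefficients. -/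
abbrev D1 : (curveOver c A).Opens := openOver c A M.C1

/-- The punctured neighbourhood with coefficients. -/
abbrev D01 : (curveOver c A).Opens := openOver c A (M.C0 ⊓ M.C1)

theorem D01_le0 : M.D01 A ≤ M.D0 A :=
  (pullback.fst c (specAlg k A)).preimage_mono inf_le_left

theorem D01_le1 : M.D01 A ≤ M.D1 A :=
  (pullback.fst c (specAlg k A)).preimage_mono inf_le_right

theorem inf_le_D01 : M.D0 A ⊓ M.D1 A ≤ M.D01 A := fun _ h => h

theorem sup_C : M.C0 ⊔ M.C1 = ⊤ := by
  refine top_unique fun x _ => ?_
  by_cases hx : x ∈ Set.range ε.1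
  · obtain ⟨y, rfl⟩ := hx
    exact Or.inr (M.eps_mem (show y ∈ (⊤ : (Spec (CommRingCat.of k)).Opens) from trivial))
  · refine Or.inl ?_
    change x ∈ (M.C0 : Set C)
    rw [M.coe_C0]
    exact hx

theorem mem_D0_or_D1 (x : curveOver c A) : x ∈ M.D0 A ∨ x ∈ M.D1 A :=
  (M.sup_C.ge (show pullback.fst c (specAlg k A) x ∈ (⊤ : C.Opens) from trivial))

/-- Expansion on the affine part. -/
def exp0A : Γ(curveOver c A, M.D0 A) →+* LaurentSeries A :=
  laurentExp A M.affine0 M.expansion.e M.exp0_const'

/-- Expansion on the punctured neighbourhood. -/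
def exp01A : Γ(curveOver c A, M.D01 A) →+* LaurentSeries A :=
  laurentExp A M.affine01 M.laurent01 M.laurent01_const

/-- Taylor expansion on the neighbourhood of the marked section. -/
def exp1A : Γ(curveOver c A, M.D1 A) →+* PowerSeries A :=
  liftExp M.affine1 PowerSeries.C
    ((PowerSeries.map (algebraMap k A)).comp
      (M.exp1.comp ((toFunRing c M.C1).symm : FunRing c M.C1 →+* Γ(C, M.C1)))) fun x => by
    change PowerSeries.map (algebraMap k A) (M.exp1 (structureHom c M.C1 x)) = _
    rw [M.exp1_const, PowerSeries.map_C]

/-- The equation of the marked section. -/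
def tA : Γ(curveOver c A, M.D1 A) := liftFun c A M.C1 (toFunRing c M.C1 M.t)

variable {A}

theorem exp1A_constHom (a : A) : M.exp1A A (constHom c A _ a) = PowerSeries.C a :=
  liftExp_constHom M.affine1 _ _ _ a

theorem exp1A_tA : M.exp1A A (M.tA A) = PowerSeries.X := by
  rw [exp1A, tA, liftExp_liftFun]
  simp [M.exp1_t]

theorem laurent_exp1A (x : Γ(curveOver c A, M.D1 A)) :
    HahnSeries.ofPowerSeries ℤ A (M.exp1A A x) = laurentExp A M.affine1 M.laurent1 M.laurent1_const x := by
  refine RingHom.congr_fun (f := (HahnSeries.ofPowerSeries ℤ A).comp (M.exp1A A))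
    (funRingHom_ext M.affine1 (fun a => ?_) fun r => ?_) x
  · rw [RingHom.comp_apply, exp1A_constHom, HahnSeries.ofPowerSeries_C, laurentExp_constHom]
  · rw [RingHom.comp_apply, exp1A, liftExp_liftFun, laurentExp_liftFun]
    exact ofPowerSeries_map (algebraMap k A) _

theorem exp0A_constHom (a : A) : M.exp0A A (constHom c A _ a) = HahnSeries.C a :=
  laurentExp_constHom A M.affine0 _ _ a

theorem exp01A_constHom (a : A) : M.exp01A A (constHom c A _ a) = HahnSeries.C a :=
  laurentExp_constHom A M.affine01 _ _ a

theorem exp01A_res0 (x : Γ(curveOver c A, M.D0 A)) :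
    M.exp01A A (res (M.D01_le0 A) x) = M.exp0A A x := by
  refine RingHom.congr_fun (f := (M.exp01A A).comp (res (M.D01_le0 A)))
    (funRingHom_ext M.affine0 (fun a => ?_) fun r => ?_) x
  · rw [RingHom.comp_apply, res_constHom, exp01A_constHom, exp0A_constHom]
  · rw [RingHom.comp_apply, res_liftFun c A inf_le_left, exp01A, exp0A, laurentExp_liftFun,
      laurentExp_liftFun]
    exact congrArg _ (M.exp01_res0 _)

theorem exp01A_res1 (x : Γ(curveOver c A, M.D1 A)) :
    M.exp01A A (res (M.D01_le1 A) x) = HahnSeries.ofPowerSeries ℤ A (M.exp1A A x) := by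
  rw [laurent_exp1A]
  refine RingHom.congr_fun (f := (M.exp01A A).comp (res (M.D01_le1 A)))
    (funRingHom_ext M.affine1 (fun a => ?_) fun r => ?_) x
  · rw [RingHom.comp_apply, res_constHom, exp01A_constHom, laurentExp_constHom]
  · rw [RingHom.comp_apply, res_liftFun c A inf_le_right, exp01A, laurentExp_liftFun,
      laurentExp_liftFun]
    exact congrArg _ (M.exp01_res1 _)

theorem exp0A_injective : Function.Injective (M.exp0A A) :=
  laurentExp_injective A M.affine0 _ _ M.expansion.injective

theorem exp01A_injective : Function.Injective (M.exp01A A) :=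
  laurentExp_injective A M.affine01 _ _ M.laurent01_injective

theorem exp1A_injective : Function.Injective (M.exp1A A) := by
  intro x y h
  refine laurentExp_injective A M.affine1 M.laurent1 M.laurent1_const ?_ ?_
  · exact (HahnSeries.ofPowerSeries_injective.comp M.exp1_injective).comp
      (toFunRing c M.C1).symm.injective
  · rw [← laurent_exp1A, ← laurent_exp1A, h]

variable {B : Type u} [CommRing B] [Algebra k B] (φ : A →ₐ[k] B)

theorem lmap_exp0A (x : Γ(curveOver c A, M.D0 A)) :
    lmap (φ : A →+* B) (M.exp0A A x) =
      M.exp0A B (appLEHom (curveMap c φ) (preimage_openOver c φ _) x) :=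
  lmap_laurentExp M.affine0 _ _ φ x

theorem lmap_exp01A (x : Γ(curveOver c A, M.D01 A)) :
    lmap (φ : A →+* B) (M.exp01A A x) =
      M.exp01A B (appLEHom (curveMap c φ) (preimage_openOver c φ _) x) :=
  lmap_laurentExp M.affine01 _ _ φ x

theorem map_exp1A (x : Γ(curveOver c A, M.D1 A)) :
    PowerSeries.map (φ : A →+* B) (M.exp1A A x) =
      M.exp1A B (appLEHom (curveMap c φ) (preimage_openOver c φ _) x) := by
  apply HahnSeries.ofPowerSeries_injective (Γ := ℤ)
  rw [ofPowerSeries_map, laurent_exp1A, laurent_exp1A]
  exact lmap_laurentExp M.affine1 _ _ φ x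

variable (A)

/-- The coordinate ring is the ring of functions on the affine part. -/
def coordFun : M.expansion.CoordRing A ≃+* Γ(curveOver c A, M.D0 A) :=
  (M.expansion.toCoord A).symm.toRingEquiv.trans
    (RingEquiv.ofBijective (tensorToFun c A M.C0) (tensorToFun_bijective c A M.affine0))

variable {A}

theorem exp0A_coordFun (r : M.expansion.CoordRing A) :
    M.exp0A A (M.coordFun A r) = M.expansion.expA A r := by
  induction r using coordRing_induction M.expansion A with
  | h a r =>
    have : M.coordFun A (a • M.expansion.coordInc A r) =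
        constHom c A _ a * liftFun c A M.C0 r := by
      change tensorToFun c A M.C0 (a • ((1 : A) ⊗ₜ[k] r)) = _
      rw [TensorProduct.smul_tmul', smul_eq_mul, mul_one, tensorToFun_tmul]
    rw [this, map_mul, exp0A_constHom, map_smul, M.expansion.expA_coordInc, laurent_smul_eq, exp0A,
      laurentExp_liftFun]
    rfl
  | hadd x y hx hy => rw [map_add, map_add, map_add, hx, hy]

theorem coordFun_const (a : A) :
    M.coordFun A (algebraMap A (M.expansion.CoordRing A) a) = constHom c A _ a := by
  apply M.exp0A_injective
  rw [exp0A_coordFun, exp0A_constHom, AlgHom.commutes, HahnSeries.algebraMap_apply]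
  simp

end CurveModel

end Fermat.Agent.Jac
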