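import Fermat.Agent.Jac.Geom.Marked
import Fermat.Agent.Jac.SecOps
import Fermat.Agent.Jac.BigCell.Lattice
import Fermat.Agent.Jac.Rigid.Basic

/-!
Frames of a line bundle along the marked section, and the lattices they define.
-/

set_option autoImplicit false
set_option linter.unusedVariables false

noncomputable section

open CategoryTheory CategoryTheory.Limits AlgebraicGeometry TopologicalSpace Opposite NeronModelInfra
open AlgebraicGeometry.RelPicard
open scoped TensorProduct

attribute [local instance 2000] HahnSeries.instAlgebra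

namespace Fermat.Agent.Jac

universe u

variable {k : Type u} [Field k] {C : Scheme.{u}} {c : C ⟶ Spec (CommRingCat.of k)}
  {ε : SchemeHomOver (𝟙 (Spec (CommRingCat.of k))) c} {M : CurveModel c ε}
  {A : Type u} [CommRing A] [Algebra k A] {ι κ : Type u}

namespace CurveModel

variable (M)

/-- A function near the section with invertible value on it is invertible near it. -/
theorem mem_basicOpen_of_isUnit {x : Γ(curveOver c A, M.D1 A)}
    (hx : IsUnit (PowerSeries.constantCoeff (M.exp1A A x))) {p : curveOver c A}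
    (hp1 : p ∈ M.D1 A) (hp0 : p ∉ M.D0 A) : p ∈ (curveOver c A).basicOpen x := by
  obtain ⟨g, hg⟩ := M.exists_eq_const_add x
  rw [evalSigma_eq] at hg
  refine ((curveOver c A).mem_basicOpen'' x p).mpr ⟨hp1, ?_⟩
  rw [hg, map_add, map_mul]
  have ht : ¬ IsUnit ((curveOver c A).presheaf.germ (M.D1 A) p hp1 (M.tA A)) := fun h => by
    have h' : p ∈ (curveOver c A).basicOpen (M.tA A) := (Scheme.mem_basicOpen _ _ _ hp1).mpr h
    rw [basicOpen_tA] at h'
    exact hp0 (M.D01_le0 A h')
  have hm : (curveOver c A).presheaf.germ (M.D1 A) p hp1 (M.tA A) *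
      (curveOver c A).presheaf.germ (M.D1 A) p hp1 g ∈ IsLocalRing.maximalIdeal _ :=
    Ideal.mul_mem_right _ _ ((IsLocalRing.mem_maximalIdeal _).mpr ht)
  have hu : IsUnit ((curveOver c A).presheaf.germ (M.D1 A) p hp1
      (constHom c A (M.D1 A) (PowerSeries.constantCoeff (M.exp1A A x)))) :=
    (hx.map (constHom c A (M.D1 A))).map _
  by_contra hn
  exact (IsLocalRing.mem_maximalIdeal _).mp
    (by simpa using Ideal.sub_mem _ ((IsLocalRing.mem_maximalIdeal _).mpr hn) hm) hu

theorem isUnit_exp1A {x : Γ(curveOver c A, M.D1 A)}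
    (hx : IsUnit (PowerSeries.constantCoeff (M.exp1A A x))) : IsUnit (M.exp1A A x) :=
  PowerSeries.isUnit_iff_constantCoeff.mpr hx

theorem isUnit_exp01A_res {x : Γ(curveOver c A, M.D1 A)} (hx : IsUnit (M.exp1A A x)) :
    IsUnit (M.exp01A A (res (M.D01_le1 A) x)) := by
  rw [exp01A_res1]; exact hx.map _

theorem exp0A_mem_range (x : Γ(curveOver c A, M.D0 A)) :
    M.exp0A A x ∈ (M.expansion.expA A).range := by
  obtain ⟨r, rfl⟩ := (M.coordFun A).surjective x
  exact ⟨r, (M.exp0A_coordFun r).symm⟩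

end CurveModel

variable (M)

/-- A frame of a line bundle near the marked section. -/
structure Frame (z : Cocycle (curveOver c A) ι) where
  η : Sec z.inv (M.D1 A)
  s : Sec z (M.D1 A)
  g : Γ(curveOver c A, M.D1 A)
  isUnit_pair : IsUnit (M.exp1A A (Sec.pair η s))
  isUnit_g : IsUnit (M.exp1A A g)

variable {M}

namespace Frame

variable {z : Cocycle (curveOver c A) ι} (F : Frame M z)

/-- The expansion of the denominator. -/
def den : (LaurentSeries A)ˣ :=
  (M.isUnit_exp01A_res F.isUnit_g).unit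

theorem den_eq : (F.den : LaurentSeries A) = M.exp01A A (res (M.D01_le1 A) F.g) :=
  IsUnit.unit_spec _

/-- The expansion of the value of the frame. -/
def hval : (LaurentSeries A)ˣ :=
  (M.isUnit_exp01A_res F.isUnit_pair).unit

theorem hval_eq :
    (F.hval : LaurentSeries A) = M.exp01A A (res (M.D01_le1 A) (Sec.pair F.η F.s)) :=
  IsUnit.unit_spec _

/-- Expansion of sections. -/
def toLaurent (x : Sec z (M.D0 A)) : LaurentSeries A :=
  M.exp01A A (Sec.pair (F.η.restrict (M.D01_le1 A)) (x.restrict (M.D01_le0 A))) * ↑F.den⁻¹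

/-- Expansion of sections of the dual. -/
def toDual (y : Sec z.inv (M.D0 A)) : LaurentSeries A :=
  M.exp01A A (Sec.pair (y.restrict (M.D01_le0 A)) (F.s.restrict (M.D01_le1 A))) *
    (↑F.den * ↑F.hval⁻¹)

theorem toDual_mul_toLaurent (y : Sec z.inv (M.D0 A)) (x : Sec z (M.D0 A)) :
    F.toDual y * F.toLaurent x = M.exp0A A (Sec.pair y x) := by
  have h := Sec.pair_mul_pair_comm (F.η.restrict (M.D01_le1 A)) (y.restrict (M.D01_le0 A))
    (x.restrict (M.D01_le0 A)) (F.s.restrict (M.D01_le1 A))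
  rw [Sec.pair_restrict (M.D01_le1 A), Sec.pair_restrict (M.D01_le0 A) y x] at h
  have h' := congrArg (M.exp01A A) h
  rw [map_mul, map_mul, ← hval_eq, CurveModel.exp01A_res0] at h'
  calc F.toDual y * F.toLaurent x
      = (M.exp01A A (Sec.pair (F.η.restrict (M.D01_le1 A)) (x.restrict (M.D01_le0 A))) *
          M.exp01A A (Sec.pair (y.restrict (M.D01_le0 A)) (F.s.restrict (M.D01_le1 A)))) *
          ↑F.hval⁻¹ * (↑F.den * ↑F.den⁻¹) := by rw [toDual, toLaurent]; ring
    _ = _ := by
        rw [h', Units.mul_inv, mul_one, mul_comm (F.hval : LaurentSeries A), mul_assoc,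
          Units.mul_inv, mul_one]

theorem toLaurent_add (x x' : Sec z (M.D0 A)) :
    F.toLaurent (x + x') = F.toLaurent x + F.toLaurent x' := by
  rw [toLaurent, toLaurent, toLaurent, ← add_mul, ← map_add, ← Sec.pair_add_right]
  rfl

theorem toLaurent_smul (r : Γ(curveOver c A, M.D0 A)) (x : Sec z (M.D0 A)) :
    F.toLaurent (r • x) = M.exp0A A r * F.toLaurent x := by
  have : (r • x).restrict (M.D01_le0 A) = res (M.D01_le0 A) r • x.restrict (M.D01_le0 A) :=
    Sec.ext fun i V hV hi => by simp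
  rw [toLaurent, this, Sec.pair_smul_right, map_mul, CurveModel.exp01A_res0, mul_assoc]
  rfl

theorem toLaurent_zero : F.toLaurent 0 = 0 := by
  have := F.toLaurent_smul 0 0
  simpa using this

theorem toLaurent_sum {α : Type*} (s : Finset α) (f : α → Sec z (M.D0 A)) :
    F.toLaurent (∑ a ∈ s, f a) = ∑ a ∈ s, F.toLaurent (f a) := by
  classical
  induction s using Finset.induction_on with
  | empty => simp [toLaurent_zero]
  | insert a s ha ih => rw [Finset.sum_insert ha, toLaurent_add, ih, Finset.sum_insert ha]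

/-- The range of the expansion. -/
def image : Submodule A (LaurentSeries A) where
  carrier := Set.range F.toLaurent
  add_mem' := by rintro _ _ ⟨x, rfl⟩ ⟨y, rfl⟩; exact ⟨x + y, F.toLaurent_add x y⟩
  zero_mem' := ⟨0, F.toLaurent_zero⟩
  smul_mem' := by
    rintro a _ ⟨x, rfl⟩
    exact ⟨constHom c A _ a • x, by
      rw [toLaurent_smul, CurveModel.exp0A_constHom, laurent_smul_eq]⟩

theorem mem_image {v : LaurentSeries A} : v ∈ F.image ↔ ∃ x, F.toLaurent x = v := Iff.rfl

/-- The lattice of a frame and a dual basis. -/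
def latticeOf {n : ℕ} (G : Fin n → Sec z (M.D0 A)) (H : Fin n → Sec z.inv (M.D0 A))
    (h : ∑ l, Sec.pair (H l) (G l) = 1) : Expansion.Lattice M.expansion A where
  n := n
  w l := F.toLaurent (G l)
  w' l := F.toDual (H l)
  dual_mem i j := by rw [toDual_mul_toLaurent]; exact M.exp0A_mem_range _
  sum_eq := by simp only [toDual_mul_toLaurent, ← map_sum, h, map_one]

theorem latticeOf_W {n : ℕ} (G : Fin n → Sec z (M.D0 A)) (H : Fin n → Sec z.inv (M.D0 A))
    (h : ∑ l, Sec.pair (H l) (G l) = 1) : (F.latticeOf G H h).W = F.image := by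
  refine le_antisymm (fun v hv => ?_) ?_
  · obtain ⟨r, hr⟩ := (F.latticeOf G H h).W_eq_of_dual.mp hv
    rw [hr]
    refine sum_mem fun i _ => ⟨M.coordFun A (r i) • G i, ?_⟩
    rw [toLaurent_smul, CurveModel.exp0A_coordFun]
    rfl
  · rintro _ ⟨x, rfl⟩ i
    change F.toDual (H i) * F.toLaurent x ∈ _
    rw [toDual_mul_toLaurent]
    exact M.exp0A_mem_range _

variable (z)

theorem exists_dualBasis₀ (M : CurveModel c ε) :
    ∃ (n : ℕ) (G : Fin n → Sec z (M.D0 A)) (H : Fin n → Sec z.inv (M.D0 A)),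
      ∑ l, Sec.pair (H l) (G l) = 1 :=
  Sec.exists_dualBasis z (M.affineD0 A)

variable {z}

/-- The lattice of a frame. -/
def lattice : Expansion.Lattice M.expansion A :=
  F.latticeOf (exists_dualBasis₀ z M).choose_spec.choose
    (exists_dualBasis₀ z M).choose_spec.choose_spec.choose
    (exists_dualBasis₀ z M).choose_spec.choose_spec.choose_spec

theorem lattice_W : F.lattice.W = F.image := F.latticeOf_W _ _ _

theorem toLaurent_injective : Function.Injective F.toLaurent := by
  obtain ⟨n, G, H, h⟩ := exists_dualBasis₀ z M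
  intro x y hxy
  have key : ∀ v : Sec z (M.D0 A), v = ∑ l, Sec.pair (H l) v • G l := fun v => by
    simp only [← Sec.pair_smul_comm (H _) (G _) v, ← Finset.sum_smul, h, one_smul]
  rw [key x, key y]
  refine Finset.sum_congr rfl fun l _ => ?_
  congr 1
  apply M.exp0A_injective
  rw [← F.toDual_mul_toLaurent, ← F.toDual_mul_toLaurent, hxy]

/-- Transport along a comparison. -/
def transport {z' : Cocycle (curveOver c A) κ} (e : Cocycle.Comparison z z') : Frame M z' where
  η := Sec.mapComp e.inv F.η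
  s := Sec.mapComp e F.s
  g := F.g
  isUnit_pair := by rw [Sec.pair_mapComp]; exact F.isUnit_pair
  isUnit_g := F.isUnit_g

theorem image_transport {z' : Cocycle (curveOver c A) κ} (e : Cocycle.Comparison z z') :
    (F.transport e).image = F.image := by
  have key : ∀ x, (F.transport e).toLaurent (Sec.mapComp e x) = F.toLaurent x := fun x => by
    rw [toLaurent, toLaurent]
    simp only [transport, ← Sec.mapComp_restrict, Sec.pair_mapComp]
    rfl
  ext v
  refine ⟨fun ⟨x, hx⟩ => ⟨Sec.mapComp e.symm x, ?_⟩, fun ⟨x, hx⟩ => ⟨_, (key x).trans hx⟩⟩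
  have h2 : Sec.mapComp e (Sec.mapComp e.symm x) = x := by
    refine Sec.ext fun a V hV ha => sections_ext z.U (z.le_iSup V) fun i V' h hi => ?_
    rw [Sec.res_val, Sec.res_val]
    apply (e.isUnit_φ i a V' hi (h.trans ha)).mul_left_cancel
    rw [Sec.mapComp_spec,
      ← Sec.mapComp_spec e.symm x i V' (h.trans hV) hi a (h.trans ha), ← mul_assoc]
    change _ = e.φ i a V' hi (h.trans ha) * ↑(e.isUnit_φ i a V' hi (h.trans ha)).unit⁻¹ * _
    rw [IsUnit.mul_val_inv, one_mul]
  rw [← key, h2, hx]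

/-- Two frames differ by an invertible power series. -/
theorem exists_scale (F' : Frame M z) : ∃ p : PowerSeries A, IsUnit p ∧
    ∀ x, F'.toLaurent x = HahnSeries.ofPowerSeries ℤ A p * F.toLaurent x := by
  have h2 : IsUnit (M.exp1A A (Sec.pair F'.η F.s)) := by
    have h := congrArg (M.exp1A A) (Sec.pair_mul_pair_comm F'.η F.η F.s F'.s)
    rw [map_mul, map_mul] at h
    exact (IsUnit.mul_iff.mp (h ▸ F'.isUnit_pair.mul F.isUnit_pair)).1
  obtain ⟨q, hq⟩ : ∃ q : PowerSeries A, q = M.exp1A A (Sec.pair F'.η F.s) * M.exp1A A F.g *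
      ↑F.isUnit_pair.unit⁻¹ * ↑F'.isUnit_g.unit⁻¹ := ⟨_, rfl⟩
  refine ⟨q, ?_, fun x => ?_⟩
  · rw [hq]
    exact ((h2.mul F.isUnit_g).mul (F.isUnit_pair.unit⁻¹).isUnit).mul (F'.isUnit_g.unit⁻¹).isUnit
  rw [hq]
  have h := congrArg (M.exp01A A) (Sec.pair_mul_pair_comm (F'.η.restrict (M.D01_le1 A))
    (F.η.restrict (M.D01_le1 A)) (x.restrict (M.D01_le0 A)) (F.s.restrict (M.D01_le1 A)))
  rw [map_mul, map_mul, Sec.pair_restrict (M.D01_le1 A) F.η F.s,
    Sec.pair_restrict (M.D01_le1 A) F'.η F.s, ← hval_eq, CurveModel.exp01A_res1] at h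
  have e1 : HahnSeries.ofPowerSeries ℤ A ↑F.isUnit_pair.unit⁻¹ = ↑F.hval⁻¹ := by
    refine (Units.inv_eq_of_mul_eq_one_right ?_).symm
    rw [hval_eq, CurveModel.exp01A_res1, ← map_mul, IsUnit.mul_val_inv, map_one]
  have e2 : HahnSeries.ofPowerSeries ℤ A ↑F'.isUnit_g.unit⁻¹ = ↑F'.den⁻¹ := by
    refine (Units.inv_eq_of_mul_eq_one_right ?_).symm
    rw [den_eq, CurveModel.exp01A_res1, ← map_mul, IsUnit.mul_val_inv, map_one]
  have e3 : HahnSeries.ofPowerSeries ℤ A (M.exp1A A F.g) = ↑F.den := by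
    rw [den_eq, CurveModel.exp01A_res1]
  rw [map_mul, map_mul, map_mul, e1, e2, e3, toLaurent, toLaurent]
  calc _ = M.exp01A A (Sec.pair (F'.η.restrict (M.D01_le1 A)) (x.restrict (M.D01_le0 A))) *
        ↑F.hval * ↑F.hval⁻¹ * ↑F'.den⁻¹ * (↑F.den * ↑F.den⁻¹) := by
        rw [Units.mul_inv, mul_one, mul_assoc _ (F.hval : LaurentSeries A), Units.mul_inv, mul_one]
    _ = _ := by rw [h]; ring

variable {B : Type u} [CommRing B] [Algebra k B]

/-- Base change of frames. -/
def map (φ : A →ₐ[k] B) : Frame M (z.pull (curveMap c φ)) where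
  η := (Sec.pullInv (curveMap c φ) F.η).restrict (preimage_openOver c φ M.C1)
  s := (pullSec (curveMap c φ) z F.s).restrict (preimage_openOver c φ M.C1)
  g := appLEHom (curveMap c φ) (preimage_openOver c φ M.C1) F.g
  isUnit_pair := by
    rw [Sec.pair_restrict, Sec.pair_pullSec, res_appLEHom, ← CurveModel.map_exp1A]
    exact F.isUnit_pair.map _
  isUnit_g := by
    rw [← CurveModel.map_exp1A]
    exact F.isUnit_g.map _

theorem toLaurent_map (φ : A →ₐ[k] B) (x : Sec z (M.D0 A)) :
    (F.map φ).toLaurent ((pullSec (curveMap c φ) z x).restrict (preimage_openOver c φ M.C0)) =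
      lmap (φ : A →+* B) (F.toLaurent x) := by
  have hd : (↑(F.map φ).den : LaurentSeries B) = lmap (φ : A →+* B) ↑F.den := by
    rw [den_eq, den_eq, CurveModel.lmap_exp01A]
    simp [map]
  have hd' : (↑(F.map φ).den⁻¹ : LaurentSeries B) = lmap (φ : A →+* B) ↑F.den⁻¹ := by
    refine Units.inv_eq_of_mul_eq_one_right ?_
    rw [hd, ← map_mul, Units.mul_inv, map_one]
  rw [toLaurent, toLaurent, map_mul, hd']
  congr 1
  rw [CurveModel.lmap_exp01A]
  congr 1
  refine Sec.pair_eq fun i V hV hi => ?_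
  have hW : V ≤ curveMap c φ ⁻¹ᵁ (M.D01 A ⊓ z.U i) :=
    le_inf (hV.trans (preimage_openOver c φ _)) hi
  have h := congrArg (appLEHom (curveMap c φ) hW)
    (Sec.res_pair (F.η.restrict (M.D01_le1 A)) (x.restrict (M.D01_le0 A)) i (M.D01 A ⊓ z.U i)
      inf_le_left inf_le_right)
  rw [appLEHom_res, map_mul] at h
  rw [res_appLEHom, h]
  refine congrArg₂ (· * ·) ?_ ?_
  · change _ = appLEHom (curveMap c φ) _ (F.η.val i (M.D1 A ⊓ z.U i) _ _)
    rw [Sec.restrict_val, ← F.η.res_val i (M.D1 A ⊓ z.U i) (M.D01 A ⊓ z.U i)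
      (inf_le_inf_right _ (M.D01_le1 A)) inf_le_left inf_le_right, appLEHom_res]
  · change _ = appLEHom (curveMap c φ) _ (x.val i (M.D0 A ⊓ z.U i) _ _)
    rw [Sec.restrict_val, ← x.res_val i (M.D0 A ⊓ z.U i) (M.D01 A ⊓ z.U i)
      (inf_le_inf_right _ (M.D01_le0 A)) inf_le_left inf_le_right, appLEHom_res]

theorem toDual_map (φ : A →ₐ[k] B) (y : Sec z.inv (M.D0 A)) :
    (F.map φ).toDual ((Sec.pullInv (curveMap c φ) y).restrict (preimage_openOver c φ M.C0)) =
      lmap (φ : A →+* B) (F.toDual y) := by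
  have hd : (↑(F.map φ).den : LaurentSeries B) = lmap (φ : A →+* B) ↑F.den := by
    rw [den_eq, den_eq, CurveModel.lmap_exp01A]
    simp [map]
  have hh : (↑(F.map φ).hval : LaurentSeries B) = lmap (φ : A →+* B) ↑F.hval := by
    rw [hval_eq, hval_eq, CurveModel.lmap_exp01A]
    simp only [map, Sec.pair_restrict, Sec.pair_pullSec, res_appLEHom, appLEHom_res]
  have hh' : (↑(F.map φ).hval⁻¹ : LaurentSeries B) = lmap (φ : A →+* B) ↑F.hval⁻¹ := by
    refine Units.inv_eq_of_mul_eq_one_right ?_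
    rw [hh, ← map_mul, Units.mul_inv, map_one]
  rw [toDual, toDual, map_mul, map_mul, hd, hh']
  congr 1
  rw [CurveModel.lmap_exp01A]
  congr 1
  refine Sec.pair_eq fun i V hV hi => ?_
  have hW : V ≤ curveMap c φ ⁻¹ᵁ (M.D01 A ⊓ z.U i) :=
    le_inf (hV.trans (preimage_openOver c φ _)) hi
  have h := congrArg (appLEHom (curveMap c φ) hW)
    (Sec.res_pair (y.restrict (M.D01_le0 A)) (F.s.restrict (M.D01_le1 A)) i (M.D01 A ⊓ z.U i)
      inf_le_left inf_le_right)
  rw [appLEHom_res, map_mul] at h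
  rw [res_appLEHom, h]
  refine congrArg₂ (· * ·) ?_ ?_
  · change _ = appLEHom (curveMap c φ) _ (y.val i (M.D0 A ⊓ z.U i) _ _)
    rw [Sec.restrict_val, ← y.res_val i (M.D0 A ⊓ z.U i) (M.D01 A ⊓ z.U i)
      (inf_le_inf_right _ (M.D01_le0 A)) inf_le_left inf_le_right, appLEHom_res]
  · change _ = appLEHom (curveMap c φ) _ (F.s.val i (M.D1 A ⊓ z.U i) _ _)
    rw [Sec.restrict_val, ← F.s.res_val i (M.D1 A ⊓ z.U i) (M.D01 A ⊓ z.U i)
      (inf_le_inf_right _ (M.D01_le1 A)) inf_le_left inf_le_right, appLEHom_res]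

theorem image_map (φ : A →ₐ[k] B) : (F.map φ).image = (F.lattice.map φ).W := by
  let G := (exists_dualBasis₀ z M).choose_spec.choose
  let H := (exists_dualBasis₀ z M).choose_spec.choose_spec.choose
  have hsum := (exists_dualBasis₀ z M).choose_spec.choose_spec.choose_spec
  have hsumB : ∑ l, Sec.pair ((Sec.pullInv (curveMap c φ) (H l)).restrict
      (preimage_openOver c φ M.C0))
      ((pullSec (curveMap c φ) z (G l)).restrict (preimage_openOver c φ M.C0)) = 1 := by
    simp only [Sec.pair_restrict, Sec.pair_pullSec, res_appLEHom, ← map_sum, G, H, hsum, map_one]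
  rw [← (F.map φ).latticeOf_W _ _ hsumB]
  congr 1
  simp only [latticeOf, Expansion.Lattice.map, lattice, toLaurent_map, toDual_map]
  rfl

/-- Product of frames. -/
def mul {z' : Cocycle (curveOver c A) κ} (F' : Frame M z') : Frame M (z.mul z') where
  η := Sec.mulInv F.η F'.η
  s := F.s.mulSec F'.s
  g := F.g * F'.g
  isUnit_pair := by
    rw [Sec.pair_mulInv, map_mul]
    exact F.isUnit_pair.mul F'.isUnit_pair
  isUnit_g := by rw [map_mul]; exact F.isUnit_g.mul F'.isUnit_g

theorem toLaurent_mul {z' : Cocycle (curveOver c A) κ} (F' : Frame M z') (x : Sec z (M.D0 A))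
    (x' : Sec z' (M.D0 A)) :
    (F.mul F').toLaurent (x.mulSec x') = F.toLaurent x * F'.toLaurent x' := by
  have hd : (↑(F.mul F').den⁻¹ : LaurentSeries A) = ↑F.den⁻¹ * ↑F'.den⁻¹ := by
    refine Units.inv_eq_of_mul_eq_one_right ?_
    rw [den_eq]
    simp only [mul, map_mul]
    rw [← den_eq, ← den_eq, mul_mul_mul_comm, Units.mul_inv, Units.mul_inv, one_mul]
  rw [toLaurent, hd, toLaurent, toLaurent]
  have e : Sec.pair (c := z.mul z') ((F.mul F').η.restrict (M.D01_le1 A))
      ((x.mulSec x').restrict (M.D01_le0 A)) =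
      Sec.pair (F.η.restrict (M.D01_le1 A)) (x.restrict (M.D01_le0 A)) *
        Sec.pair (F'.η.restrict (M.D01_le1 A)) (x'.restrict (M.D01_le0 A)) :=
    by simp only [mul, Sec.restrict_mulInv, Sec.restrict_mulSec, Sec.pair_mulInv]
  rw [e, map_mul]
  ring

/-- The frame of the inverse bundle. -/
def inv : Frame M z.inv where
  η := F.g • F.s.toInvInv
  s := F.η
  g := Sec.pair F.η F.s
  isUnit_pair := by
    rw [Sec.pair_smul_left, Sec.pair_toInvInv, map_mul]
    exact F.isUnit_g.mul F.isUnit_pair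
  isUnit_g := F.isUnit_pair

theorem toLaurent_inv (y : Sec z.inv (M.D0 A)) : F.inv.toLaurent y = F.toDual y := by
  rw [toLaurent, toDual]
  have hd : (↑F.inv.den⁻¹ : LaurentSeries A) = ↑F.hval⁻¹ := by
    refine Units.inv_eq_of_mul_eq_one_right ?_
    rw [den_eq]
    simp only [inv]
    rw [← hval_eq, Units.mul_inv]
  rw [hd]
  have e : F.inv.η.restrict (M.D01_le1 A) =
      res (M.D01_le1 A) F.g • (F.s.restrict (M.D01_le1 A)).toInvInv :=
    Sec.ext fun i V hV hi => by simp [inv, Sec.toInvInv]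
  rw [e, Sec.pair_smul_left, Sec.pair_toInvInv, map_mul, ← den_eq]
  ring

/-- The class is trivial if `1` is the expansion of a section and of a dual section. -/
theorem mk_eq_one (h1 : (1 : LaurentSeries A) ∈ F.image) (h2 : ∃ y, F.toDual y = 1) :
    Pic.mk z = 1 := by
  obtain ⟨e, he⟩ := h1
  obtain ⟨y, hy⟩ := h2
  have hye : Sec.pair y e = 1 := M.exp0A_injective <| by
    rw [← F.toDual_mul_toLaurent, hy, he, one_mul, map_one]
  have heq : Sec.pair (F.η.restrict (M.D01_le1 A)) (e.restrict (M.D01_le0 A)) =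
      res (M.D01_le1 A) F.g := M.exp01A_injective <| by
    have := congrArg (· * (F.den : LaurentSeries A)) he
    rw [← den_eq]
    simpa [toLaurent, mul_assoc] using this
  let V : (curveOver c A).Opens :=
    (curveOver c A).basicOpen (F.g * Sec.pair F.η F.s)
  have hV1 : V ≤ M.D1 A := Scheme.basicOpen_le _ _
  have hu : IsUnit (res hV1 (F.g * Sec.pair F.η F.s)) :=
    RingedSpace.isUnit_res_basicOpen _ _
  rw [map_mul, IsUnit.mul_iff] at hu
  obtain ⟨r, hr⟩ : ∃ r, res hV1 (Sec.pair F.η F.s) * r = res hV1 F.g :=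
    ⟨↑hu.2.unit⁻¹ * res hV1 F.g, by rw [← mul_assoc, IsUnit.mul_val_inv, one_mul]⟩
  let s' : Sec z V := r • F.s.restrict hV1
  have hs' : s'.IsGen := by
    refine Sec.isGen_of_isUnit_pair (η := F.η.restrict hV1) ?_
    rw [Sec.pair_smul_right, Sec.pair_restrict, mul_comm, hr]
    exact hu.1
  have he' : e.IsGen := Sec.isGen_of_isUnit_pair (η := y) (by rw [hye]; exact isUnit_one)
  have hagree : ∀ W (h0 : W ≤ M.D0 A) (hV : W ≤ V), e.restrict h0 = s'.restrict hV := by
    intro W h0 hV
    have h01 : W ≤ M.D01 A := (le_inf h0 (hV.trans hV1)).trans (M.inf_le_D01 A)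
    have h3 := Sec.pair_smul_comm (F.η.restrict (hV.trans hV1)) (F.s.restrict (hV.trans hV1))
      (e.restrict h0)
    have h4 : Sec.pair (F.η.restrict (hV.trans hV1)) (e.restrict h0) = res (hV.trans hV1) F.g := by
      rw [← res_res h01 (M.D01_le1 A), ← heq, ← Sec.pair_restrict h01]
      rfl
    rw [h4, Sec.pair_restrict] at h3
    have h5 := congrArg (res hV) hr
    rw [map_mul, res_res, res_res] at h5
    rw [← h5] at h3
    have hu' : IsUnit (res (hV.trans hV1) (Sec.pair F.η F.s)) := by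
      have := hu.2.map (res hV)
      rwa [res_res] at this
    obtain ⟨v, hv⟩ := hu'.exists_left_inv
    refine Sec.ext fun i U hU hi => ?_
    have h6 := congrArg (fun x : Sec z W => res hU v * x.val i U hU hi) h3
    simp only [Sec.smul_val, map_mul, ← mul_assoc] at h6
    have hv' : res hU v * res hU (res (hV.trans hV1) (Sec.pair F.η F.s)) = 1 := by
      rw [← map_mul, hv, map_one]
    rw [hv', one_mul, one_mul] at h6
    simpa [s'] using h6
  rw [Pic.mk_eq_one_iff]
  obtain ⟨S, hS⟩ := Sec.exists_glue (c := z) (W := ⊤)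
    (fun b : Bool => cond b (M.D0 A) V)
    (fun p _ => Opens.mem_iSup.mpr <| by
      by_cases hp : p ∈ M.D0 A
      · exact ⟨true, hp⟩
      · refine ⟨false, M.mem_basicOpen_of_isUnit ?_ ((M.mem_D0_or_D1 A p).resolve_left hp) hp⟩
        exact PowerSeries.isUnit_iff_constantCoeff.mp
          (by rw [map_mul]; exact F.isUnit_g.mul F.isUnit_pair))
    (fun b W _ hb => match b, hb with
      | true, hb => e.restrict hb
      | false, hb => s'.restrict hb)
    (fun b W W' h hW hb => by cases b <;> rfl)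
    (fun a b W hW ha hb => by
      cases a <;> cases b
      · rfl
      · exact (hagree W hb ha).symm
      · exact hagree W ha hb
      · rfl)
  refine ⟨S, fun i U hU hi => isUnit_of_cover (fun b : Bool => cond b (M.D0 A) V) ?_
    fun b W hW hb => ?_⟩
  · intro p _
    by_cases hp : p ∈ M.D0 A
    · exact Opens.mem_iSup.mpr ⟨true, hp⟩
    · refine Opens.mem_iSup.mpr ⟨false, M.mem_basicOpen_of_isUnit ?_
        ((M.mem_D0_or_D1 A p).resolve_left hp) hp⟩
      exact PowerSeries.isUnit_iff_constantCoeff.mp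
        (by rw [map_mul]; exact F.isUnit_g.mul F.isUnit_pair)
  · rw [Sec.res_val]
    have := congrArg (fun x : Sec z W => x.val i W le_rfl (hW.trans hi)) (hS b W le_top hb)
    simp only [Sec.restrict_val] at this
    rw [this]
    cases b
    · exact hs'.restrict _ _ _ _ _
    · exact he'.restrict _ _ _ _ _

/-- Bundles with frames of the same image are isomorphic. -/
theorem mk_eq_mk_of_image_eq {z' : Cocycle (curveOver c A) κ} (F' : Frame M z')
    (h : F'.image = F.image) : Pic.mk z' = Pic.mk z := by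
  classical
  rw [← div_eq_one, div_eq_mul_inv, Pic.mk_inv, Pic.mk_mul]
  obtain ⟨n, G, H, hsum⟩ := exists_dualBasis₀ z M
  obtain ⟨n', G', H', hsum'⟩ := exists_dualBasis₀ z' M
  refine mk_eq_one (F'.mul F.inv) ?_ ?_
  · have hG : ∀ l, ∃ x, F'.toLaurent x = F.toLaurent (G l) := fun l => by
      rw [← mem_image, h]; exact ⟨_, rfl⟩
    choose x hx using hG
    refine ⟨∑ l, (x l).mulSec (H l), ?_⟩
    rw [toLaurent_sum]
    simp only [toLaurent_mul, toLaurent_inv, hx, mul_comm (F.toLaurent _), toDual_mul_toLaurent,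
      ← map_sum, hsum, map_one]
  · have hG : ∀ l, ∃ x, F.toLaurent x = F'.toLaurent (G' l) := fun l => by
      rw [← mem_image, ← h]; exact ⟨_, rfl⟩
    choose x hx using hG
    refine ⟨∑ l, Sec.mulInv (H' l) (x l).toInvInv, ?_⟩
    rw [← toLaurent_inv, toLaurent_sum]
    simp only [toLaurent_inv]
    have key : ∀ (y : Sec z'.inv (M.D0 A)) (v : Sec z (M.D0 A)),
        (F'.mul F.inv).toDual (Sec.mulInv y v.toInvInv) = F'.toDual y * F.toLaurent v := by
      intro y v
      rw [toDual, toDual, toLaurent]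
      have hd : (↑(F'.mul F.inv).den : LaurentSeries A) = ↑F'.den * ↑F.hval := by
        rw [den_eq, hval_eq, den_eq]
        simp [mul, inv]
      have hh : (↑(F'.mul F.inv).hval : LaurentSeries A) = ↑F'.hval * (↑F.den * ↑F.hval) := by
        rw [hval_eq, hval_eq, hval_eq, den_eq]
        simp only [mul, inv, Sec.pair_mulInv, Sec.pair_smul_left, Sec.pair_toInvInv, map_mul]
      have hh' : (↑(F'.mul F.inv).hval⁻¹ : LaurentSeries A) =
          ↑F'.hval⁻¹ * (↑F.den⁻¹ * ↑F.hval⁻¹) := by
        refine Units.inv_eq_of_mul_eq_one_right ?_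
        rw [hh, mul_mul_mul_comm, Units.mul_inv, one_mul, mul_mul_mul_comm, Units.mul_inv,
          Units.mul_inv, one_mul]
      have e : Sec.pair ((Sec.mulInv y v.toInvInv).restrict (M.D01_le0 A))
          ((F'.mul F.inv).s.restrict (M.D01_le1 A)) =
          Sec.pair (y.restrict (M.D01_le0 A)) (F'.s.restrict (M.D01_le1 A)) *
            Sec.pair (F.η.restrict (M.D01_le1 A)) (v.restrict (M.D01_le0 A)) := by
        simp only [mul, inv, Sec.restrict_mulInv, Sec.restrict_mulSec, Sec.restrict_toInvInv,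
          Sec.pair_mulInv, Sec.pair_toInvInv]
      rw [hd, hh', e, map_mul]
      have hu : (↑F.hval : LaurentSeries A) * ↑F.hval⁻¹ = 1 := Units.mul_inv _
      linear_combination (M.exp01A A (Sec.pair (y.restrict (M.D01_le0 A))
        (F'.s.restrict (M.D01_le1 A))) * M.exp01A A (Sec.pair (F.η.restrict (M.D01_le1 A))
        (v.restrict (M.D01_le0 A))) * ↑F'.den * ↑F'.hval⁻¹ * ↑F.den⁻¹) * hu
    simp only [key, hx, toDual_mul_toLaurent, ← map_sum, hsum', map_one]

end Frame

end Fermat.Agent.Jac
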