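import Fermat.Agent.Jac.Geom.Frame
import Fermat.Agent.Jac.BigCell.Normalise

/-!
Frames exist exactly for classes trivial along the marked section; the cell of a class.
-/

set_option autoImplicit false
set_option linter.unusedVariables false

noncomputable section

open CategoryTheory CategoryTheory.Limits AlgebraicGeometry TopologicalSpace Opposite NeronModelInfra
open AlgebraicGeometry.RelPicard
open scoped TensorProduct

attribute [local instance 2000] HahnSeries.instAlgebra

namespace Fermat.Agent.Jac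

universe u

variable {k : Type u} [Field k] {C : Scheme.{u}} {c : C ⟶ Spec (CommRingCat.of k)}
  {ε : SchemeHomOver (𝟙 (Spec (CommRingCat.of k))) c} {M : CurveModel c ε}
  {A : Type u} [CommRing A] [Algebra k A] {ι κ : Type u}

theorem pair_sum_left {X : Scheme.{u}} {z : Cocycle X ι} {W : X.Opens} {α : Type*} (s : Finset α)
    (f : α → Sec z.inv W) (x : Sec z W) :
    Sec.pair (∑ a ∈ s, f a) x = ∑ a ∈ s, Sec.pair (f a) x := by
  classical
  induction s using Finset.induction_on with
  | empty =>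
    simp only [Finset.sum_empty]
    exact Sec.pair_eq fun i V hV hi => by simp
  | insert a s ha ih => rw [Finset.sum_insert ha, Sec.pair_add_left, ih, Finset.sum_insert ha]

namespace CurveModel

variable (M)

/-- The marked section, into the curve with coefficients. -/
abbrev sigma (M : CurveModel c ε) (A : Type u) [CommRing A] [Algebra k A] :
    Spec (CommRingCat.of A) ⟶ curveOver c A :=
  rigSection c (specAlg k A) ε

theorem evalSigma_constHom (a : A) : M.evalSigma A (constHom c A _ a) = a := by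
  rw [evalSigma_eq, exp1A_constHom, PowerSeries.constantCoeff_C]

theorem isUnit_exp1A_iff (x : Γ(curveOver c A, M.D1 A)) :
    IsUnit (M.exp1A A x) ↔ IsUnit (M.evalSigma A x) := by
  rw [PowerSeries.isUnit_iff_constantCoeff, evalSigma_eq]

end CurveModel

namespace Frame

variable {z : Cocycle (curveOver c A) ι}

/-- A bundle with a frame is trivial along the marked section. -/
theorem map_sigma_eq_one (F : Frame M z) : Pic.map (M.sigma A) (Pic.mk z) = 1 := by
  rw [Pic.map_mk, Pic.mk_eq_one_iff]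
  refine ⟨(pullSec (M.sigma A) z F.s).restrict (M.sigma_mem_D1 A ⊤),
    Sec.isGen_of_isUnit_pair (η := (Sec.pullInv (M.sigma A) F.η).restrict (M.sigma_mem_D1 A ⊤)) ?_⟩
  rw [Sec.pair_restrict, Sec.pair_pullSec, res_appLEHom]
  have h := ((M.isUnit_exp1A_iff _).mp F.isUnit_pair).map (Scheme.ΓSpecIso (CommRingCat.of A)).inv.hom
  change IsUnit ((Scheme.ΓSpecIso (CommRingCat.of A)).inv
    ((Scheme.ΓSpecIso (CommRingCat.of A)).hom (appLEHom _ _ _))) at h
  rwa [Iso.hom_inv_id_apply] at h

variable (M z)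

/-- A bundle trivial along the marked section has a frame. -/
theorem exists_frame (hz : Pic.map (M.sigma A) (Pic.mk z) = 1) : Nonempty (Frame M z) := by
  classical
  rw [Pic.map_mk, Pic.mk_eq_one_iff] at hz
  obtain ⟨ρ, hρ⟩ := hz
  obtain ⟨n, G, H, hsum⟩ := Sec.exists_dualBasis z (M.affineD1 A)
  let φ := (Scheme.ΓSpecIso (CommRingCat.of A)).hom.hom
  let hle := M.sigma_mem_D1 A ⊤
  let G' : Fin n → Sec (z.pull (M.sigma A)) ⊤ := fun l => (pullSec (M.sigma A) z (G l)).restrict hle
  let H' : Fin n → Sec (z.pull (M.sigma A)).inv ⊤ := fun l =>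
    (Sec.pullInv (M.sigma A) (H l)).restrict hle
  choose b hb using fun l => (hρ.exists_smul (G' l)).exists
  let a : Fin n → Γ(Spec (CommRingCat.of A), ⊤) := fun l => Sec.pair (H' l) ρ
  have hpair : ∀ l m, M.evalSigma A (Sec.pair (H l) (G m)) = φ (b m) * φ (a l) := by
    intro l m
    rw [← map_mul]
    change φ (appLEHom (M.sigma A) hle _) = _
    congr 1
    have h1 : appLEHom (M.sigma A) hle (Sec.pair (H l) (G m)) = Sec.pair (H' l) (G' m) := by
      rw [Sec.pair_restrict, Sec.pair_pullSec, res_appLEHom]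
    rw [h1, ← hb m, Sec.pair_smul_right]
  have h1 : ∑ l, φ (b l) * φ (a l) = 1 := by
    simp only [← hpair]
    rw [← map_sum, hsum, map_one]
  refine ⟨{ η := ∑ l, constHom c A (M.D1 A) (φ (b l)) • H l
            s := ∑ m, constHom c A (M.D1 A) (φ (a m)) • G m
            g := 1
            isUnit_pair := ?_
            isUnit_g := by rw [map_one]; exact isUnit_one }⟩
  rw [M.isUnit_exp1A_iff, pair_sum_left]
  simp only [Sec.pair_smul_left, Sec.pair_sum_right, Sec.pair_smul_right, map_sum, map_mul,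
    CurveModel.evalSigma_constHom, hpair, Finset.mul_sum]
  have h2 : (∑ l, ∑ m, φ (a m) * (φ (b l) * (φ (b m) * φ (a l)))) =
      (∑ l, φ (b l) * φ (a l)) * ∑ m, φ (b m) * φ (a m) := by
    rw [Finset.sum_mul_sum]
    exact Finset.sum_congr rfl fun l _ => Finset.sum_congr rfl fun m _ => by ring
  rw [h2, h1, one_mul]
  exact isUnit_one

end Frame

/-- The class `ξ` is described by the cell `W`. -/
def HasCell (M : CurveModel c ε) (ξ : Pic (curveOver c A))
    (W : Expansion.Cell M.expansion A) : Prop :=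
  ∃ (ι : Type u) (z : Cocycle (curveOver c A) ι) (F : Frame M z),
    Pic.mk z = ξ ∧ F.image = W.W

theorem HasCell.rigid {ξ : Pic (curveOver c A)} {W : Expansion.Cell M.expansion A}
    (h : HasCell M ξ W) : ξ ∈ rigidPic c ε (specAlg k A) := by
  obtain ⟨ι, z, F, rfl, -⟩ := h
  exact mem_rigidPic.mpr F.map_sigma_eq_one

theorem HasCell.map {ξ : Pic (curveOver c A)} {W : Expansion.Cell M.expansion A}
    (h : HasCell M ξ W) {B : Type u} [CommRing B] [Algebra k B] (φ : A →ₐ[k] B) :
    HasCell M (Pic.map (curveMap c φ) ξ) (W.map φ) := by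
  obtain ⟨ι, z, F, rfl, hF⟩ := h
  refine ⟨ι, z.pull (curveMap c φ), F.map φ, (Pic.map_mk _ _).symm, ?_⟩
  rw [Frame.image_map]
  refine le_antisymm ((F.lattice.map_le_span φ).trans (Submodule.span_le.mpr ?_)) ?_
  · rintro _ ⟨x, hx, rfl⟩
    rw [SetLike.mem_coe, Frame.lattice_W, hF] at hx
    exact W.lmap_mem_map φ hx
  · rw [← (W.map φ).span_basis]
    refine Submodule.span_le.mpr ?_
    rintro _ ⟨n, rfl⟩
    rw [W.map_basis φ n]
    exact F.lattice.lmap_mem_map φ (by rw [Frame.lattice_W, hF]; exact W.basis_mem n)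

theorem HasCell.unique_cell {ξ : Pic (curveOver c A)} {W W' : Expansion.Cell M.expansion A}
    (h : HasCell M ξ W) (h' : HasCell M ξ W') : W = W' := by
  obtain ⟨ι, z, F, rfl, hF⟩ := h
  obtain ⟨κ, z', F', hz, hF'⟩ := h'
  obtain ⟨e⟩ := Pic.mk_eq_mk_iff.mp hz.symm
  obtain ⟨p, hp, hscale⟩ := (F.transport e).exists_scale F'
  refine Expansion.Cell.eq_of_scale (p := p) (fun v hv => ?_)
    (PowerSeries.isUnit_iff_constantCoeff.mp hp)
  rw [← hF, ← Frame.image_transport F e] at hv
  obtain ⟨x, rfl⟩ := hv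
  rw [← hscale, ← hF']
  exact ⟨x, rfl⟩

theorem HasCell.unique_class {ξ ξ' : Pic (curveOver c A)} {W : Expansion.Cell M.expansion A}
    (h : HasCell M ξ W) (h' : HasCell M ξ' W) : ξ = ξ' := by
  obtain ⟨ι, z, F, rfl, hF⟩ := h
  obtain ⟨κ, z', F', rfl, hF'⟩ := h'
  exact (Frame.mk_eq_mk_of_image_eq F F' (hF'.trans hF.symm)).symm

/-- A class whose lattice is polar has a cell. -/
theorem exists_hasCell_of_polar {z : Cocycle (curveOver c A) ι} (F : Frame M z)
    (h : Expansion.Polar F.image) : ∃ W, HasCell M (Pic.mk z) W := by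
  rw [← F.lattice_W] at h
  obtain ⟨x, v, W, hx, hv, hvW, hW⟩ := F.lattice.exists_normalise h
  rw [Frame.lattice_W] at hvW
  obtain ⟨w, hw⟩ := hvW
  set P := Sec.pair (F.η.restrict (M.D01_le1 A)) (w.restrict (M.D01_le0 A))
  have hP : M.exp01A A P =
      HahnSeries.ofPowerSeries ℤ A (x * M.exp1A A F.g) := by
    rw [map_mul, ← hv, ← CurveModel.exp01A_res1, ← F.den_eq, ← hw, Frame.toLaurent,
      Units.inv_mul_cancel_right]
  obtain ⟨g', hg'⟩ := M.exists_extend P (by rw [hP]; exact poleLE_ofPowerSeries _)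
  have hexp : M.exp1A A g' = x * M.exp1A A F.g :=
    HahnSeries.ofPowerSeries_injective (Γ := ℤ) (by rw [← hP, ← CurveModel.exp01A_res1, hg'])
  have hu : IsUnit (M.exp1A A g') := by
    rw [hexp]
    exact (PowerSeries.isUnit_iff_constantCoeff.mpr (hx ▸ isUnit_one)).mul F.isUnit_g
  let F' : Frame M z := { F with g := g', isUnit_g := hu }
  refine ⟨W, ι, z, F', rfl, ?_⟩
  have hd : (F'.den : LaurentSeries A) = v * F.den := by
    rw [Frame.den_eq, Frame.den_eq, CurveModel.exp01A_res1, CurveModel.exp01A_res1, hexp,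
      map_mul, hv]
  have hd' : (↑F'.den⁻¹ : LaurentSeries A) = ↑v⁻¹ * ↑F.den⁻¹ := by
    refine Units.inv_eq_of_mul_eq_one_right ?_
    rw [hd, mul_mul_mul_comm, Units.mul_inv, Units.mul_inv, one_mul]
  have key : ∀ y, F'.toLaurent y = ↑v⁻¹ * F.toLaurent y := by
    intro y
    rw [Frame.toLaurent, Frame.toLaurent, hd']
    ring
  rw [hW]
  ext y
  rw [Expansion.Lattice.mem_scale, inv_inv, Frame.lattice_W]
  refine ⟨fun ⟨t, ht⟩ => ⟨t, ?_⟩, fun ⟨t, ht⟩ => ⟨t, ?_⟩⟩
  · rw [← ht, key, Units.mul_inv_cancel_left]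
  · rw [key, ht, Units.inv_mul_cancel_left]

theorem HasCell.polar {ξ : Pic (curveOver c A)} {W : Expansion.Cell M.expansion A}
    (h : HasCell M ξ W) : ∃ (ι : Type u) (z : Cocycle (curveOver c A) ι) (F : Frame M z),
      Pic.mk z = ξ ∧ Expansion.Polar F.image := by
  obtain ⟨ι, z, F, hz, hF⟩ := h
  exact ⟨ι, z, F, hz, hF ▸ W.polar⟩

end Fermat.Agent.Jac
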