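import Fermat.Agent.Jac.Geom.Charts

/-!
The marked section of the curve with coefficients: evaluation, the equation, regularity at the
section, and functions on the whole curve.
-/

set_option autoImplicit false
set_option linter.unusedVariables false

noncomputable section

open CategoryTheory CategoryTheory.Limits AlgebraicGeometry TopologicalSpace Opposite NeronModelInfra
open AlgebraicGeometry.RelPicard
open scoped TensorProduct

attribute [local instance 2000] HahnSeries.instAlgebra

namespace Fermat.Agent.Jac

universe u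

variable {k : Type u} [Field k] {C : Scheme.{u}} {c : C ⟶ Spec (CommRingCat.of k)}
  {A : Type u} [CommRing A] [Algebra k A]

namespace Expansion

variable {R : Type u} [CommRing R] [Algebra k R] (E : Expansion k R)

/-- Over any coefficient ring, functions without pole are constant. -/
theorem eq_algebraMap_of_no_pole (A : Type u) [CommRing A] [Algebra k A] (r : E.CoordRing A)
    (h : PoleLE (E.expA A r) 0) : ∃ a : A, r = algebraMap A (E.CoordRing A) a := by
  classical
  refine ⟨(E.expA A r).coeff 0, ?_⟩
  set r' := r - algebraMap A (E.CoordRing A) ((E.expA A r).coeff 0)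
  suffices H : r' = 0 from sub_eq_zero.mp H
  have hr' : ∀ i : ℤ, i ≤ 0 → (E.expA A r').coeff i = 0 := by
    intro i hi
    rw [map_sub, AlgHom.commutes, HahnSeries.coeff_sub, HahnSeries.algebraMap_apply]
    rcases hi.lt_or_eq with hi | rfl
    · rw [h i (by omega), HahnSeries.C_apply, HahnSeries.coeff_single_of_ne (by omega), sub_zero]
    · simp
  obtain ⟨y, hy⟩ := (E.toCoord A).surjective r'
  rw [← hy] at hr' ⊢
  suffices y = 0 by rw [this, map_zero]
  refine tensor_eq_zero_of_coeff
    (fun i => if i ≤ 0 then coeffFunctional E.e E.e_const i else 0) ?_ A y fun i => ?_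
  · intro s hs
    have hs' : ∀ i : ℤ, i ≤ 0 → (E.e s).coeff i = 0 := fun i hi => by
      have := hs i
      simp only [if_pos hi] at this
      exact this
    obtain ⟨a, rfl⟩ := E.const_of_no_pole s fun i hi => hs' i (by omega)
    have h0 := hs' 0 le_rfl
    rw [E.e_const, HahnSeries.C_apply, HahnSeries.coeff_single_same] at h0
    rw [h0, map_zero]
  · by_cases hi : i ≤ 0
    · simp only [if_pos hi]
      have key : ∀ z : A ⊗[k] R,
          TensorProduct.rid k A ((coeffFunctional E.e E.e_const i).lTensor A z) =
            (E.expA A (E.toCoord A z)).coeff i := by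
        intro z
        induction z using TensorProduct.induction_on with
        | zero => simp
        | tmul a s =>
          have : E.toCoord A (a ⊗ₜ s) = a • E.coordInc A s := by
            change (a ⊗ₜ[k] s : A ⊗[k] R) = a • ((1 : A) ⊗ₜ[k] s)
            rw [TensorProduct.smul_tmul', smul_eq_mul, mul_one]
          rw [this, map_smul (E.expA A), E.expA_coordInc, HahnSeries.coeff_smul,
            LinearMap.lTensor_tmul, TensorProduct.rid_tmul, Algebra.smul_def, smul_eq_mul, mul_comm]
          rfl
        | add z z' h h' => simp only [map_add, HahnSeries.coeff_add, h, h']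
      rw [key]
      exact hr' i hi
    · simp only [if_neg hi]
      simp

end Expansion

variable {ε : SchemeHomOver (𝟙 (Spec (CommRingCat.of k))) c}

theorem rigSection_fst (A : Type u) [CommRing A] [Algebra k A] :
    rigSection c (specAlg k A) ε ≫ pullback.fst c (specAlg k A) = specAlg k A ≫ ε.1 :=
  pullback.lift_fst _ _ _

theorem rigSection_snd (A : Type u) [CommRing A] [Algebra k A] :
    rigSection c (specAlg k A) ε ≫ pullback.snd c (specAlg k A) = 𝟙 _ :=
  pullback.lift_snd _ _ _

theorem isAffineHom_fst (A : Type u) [CommRing A] [Algebra k A] :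
    IsAffineHom (pullback.fst c (specAlg k A)) := by
  have : IsAffineHom (specAlg k A) := isAffineHom_of_isAffine _
  exact MorphismProperty.pullback_fst _ _ this

namespace CurveModel

variable (M : CurveModel c ε) (A)

theorem sigma_mem_D1 (W : (Spec (CommRingCat.of A)).Opens) :
    W ≤ rigSection c (specAlg k A) ε ⁻¹ᵁ M.D1 A := by
  rw [← Scheme.Hom.comp_preimage, rigSection_fst, Scheme.Hom.comp_preimage]
  exact fun p _ => M.eps_mem (show specAlg k A p ∈ (⊤ : (Spec (CommRingCat.of k)).Opens) from trivial)

/-- Evaluation along the marked section. -/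
def evalSigma : Γ(curveOver c A, M.D1 A) →+* A :=
  (Scheme.ΓSpecIso (CommRingCat.of A)).hom.hom.comp
    (appLEHom (rigSection c (specAlg k A) ε) (M.sigma_mem_D1 A ⊤))

variable {A}

theorem evalSigma_eq (x : Γ(curveOver c A, M.D1 A)) :
    M.evalSigma A x = PowerSeries.constantCoeff (M.exp1A A x) := by
  refine RingHom.congr_fun (f := M.evalSigma A) (g := (PowerSeries.constantCoeff).comp (M.exp1A A))
    (funRingHom_ext M.affine1 (fun a => ?_) fun r => ?_) x
  · rw [RingHom.comp_apply, exp1A_constHom, PowerSeries.constantCoeff_C]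
    change (Scheme.ΓSpecIso (CommRingCat.of A)).hom (appLEHom _ _
      (appLEHom (pullback.snd c (specAlg k A)) _ ((Scheme.ΓSpecIso (CommRingCat.of A)).inv a))) = a
    rw [appLEHom_appLEHom, appLEHom_congr (rigSection_snd A), appLEHom_id, res_self,
      Iso.inv_hom_id_apply]
  · rw [RingHom.comp_apply, exp1A, liftExp_liftFun]
    change (Scheme.ΓSpecIso (CommRingCat.of A)).hom (appLEHom _ _
      (appLEHom (pullback.fst c (specAlg k A)) le_rfl ((toFunRing c M.C1).symm r))) =
      PowerSeries.constantCoeff
        (PowerSeries.map (algebraMap k A) (M.exp1 ((toFunRing c M.C1).symm r)))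
    rw [appLEHom_appLEHom, appLEHom_congr (rigSection_fst A),
      ← PowerSeries.coeff_zero_eq_constantCoeff_apply, PowerSeries.coeff_map,
      PowerSeries.coeff_zero_eq_constantCoeff_apply, M.constantCoeff_exp1]
    rw [← appLEHom_appLEHom (specAlg k A) ε.1 (le_preimage_top _ ⊤) M.eps_mem]
    set y := appLEHom ε.1 M.eps_mem ((toFunRing c M.C1).symm r) with hy
    obtain ⟨z, hz⟩ : ∃ z, y = (Scheme.ΓSpecIso (CommRingCat.of k)).inv z :=
      ⟨(Scheme.ΓSpecIso (CommRingCat.of k)).hom y, (Iso.hom_inv_id_apply _ _).symm⟩
    change _ = algebraMap k A ((Scheme.ΓSpecIso (CommRingCat.of k)).hom y)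
    rw [hz, Iso.inv_hom_id_apply]
    change (Scheme.ΓSpecIso (CommRingCat.of A)).hom
      (appLEHom (Spec.map (CommRingCat.ofHom (algebraMap k A))) _ _) = _
    rw [appLEHom_specMap_top, Iso.inv_hom_id_apply]
    rfl

/-- A function near the section is a constant plus a multiple of the equation. -/
theorem exists_eq_const_add (x : Γ(curveOver c A, M.D1 A)) :
    ∃ g, x = constHom c A _ (M.evalSigma A x) + M.tA A * g := by
  obtain ⟨y, rfl⟩ := (tensorToFun_bijective c A M.affine1).2 x
  induction y using TensorProduct.induction_on with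
  | zero => exact ⟨0, by simp⟩
  | tmul a r =>
    let f : Γ(C, M.C1) := (toFunRing c M.C1).symm r
    let c₀ : k := PowerSeries.constantCoeff (M.exp1 f)
    obtain ⟨g, hg⟩ := M.t_dvd (f - structureHom c M.C1 c₀) (by simp [M.exp1_const, c₀])
    refine ⟨constHom c A _ a * liftFun c A M.C1 (toFunRing c M.C1 g), ?_⟩
    rw [tensorToFun_tmul]
    have hr : r = algebraMap k (FunRing c M.C1) c₀ + toFunRing c M.C1 M.t * toFunRing c M.C1 g := by
      rw [← map_mul, ← hg]
      change r = toFunRing c M.C1 (structureHom c M.C1 c₀) +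
        toFunRing c M.C1 (f - structureHom c M.C1 c₀)
      rw [← map_add, add_sub_cancel]
      exact ((toFunRing c M.C1).apply_symm_apply r).symm
    have he : M.evalSigma A (constHom c A _ a * liftFun c A M.C1 r) = a * algebraMap k A c₀ := by
      rw [evalSigma_eq, map_mul, map_mul, exp1A_constHom, PowerSeries.constantCoeff_C, exp1A,
        liftExp_liftFun]
      refine congrArg (a * ·) ?_
      rw [← PowerSeries.coeff_zero_eq_constantCoeff_apply]
      exact (PowerSeries.coeff_map _ _ _).trans
        (congrArg _ (PowerSeries.coeff_zero_eq_constantCoeff_apply _))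
    rw [he, map_mul (constHom c A _)]
    conv_lhs => rw [hr]
    rw [map_add, map_mul, liftFun_algebraMap, tA]
    ring
  | add y y' h h' =>
    obtain ⟨g, hg⟩ := h
    obtain ⟨g', hg'⟩ := h'
    refine ⟨g + g', ?_⟩
    rw [map_add (tensorToFun c A M.C1), map_add (M.evalSigma A), map_add (constHom c A _)]
    linear_combination hg + hg'

theorem tA_dvd {x : Γ(curveOver c A, M.D1 A)}
    (h : PowerSeries.constantCoeff (M.exp1A A x) = 0) : M.tA A ∣ x := by
  obtain ⟨g, hg⟩ := M.exists_eq_const_add x
  rw [evalSigma_eq, h, map_zero, zero_add] at hg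
  exact ⟨g, hg⟩

variable (A)

theorem affineD0 : IsAffineOpen (M.D0 A) :=
  have := isAffineHom_fst (c := c) A
  M.affine0.preimage _

theorem affineD1 : IsAffineOpen (M.D1 A) :=
  have := isAffineHom_fst (c := c) A
  M.affine1.preimage _

theorem affineD01 : IsAffineOpen (M.D01 A) :=
  have := isAffineHom_fst (c := c) A
  M.affine01.preimage _

theorem basicOpen_tA : (curveOver c A).basicOpen (M.tA A) = M.D01 A := by
  have h := (pullback.fst c (specAlg k A)).preimage_basicOpen M.t
  rw [M.basicOpen_t] at h
  change _ = pullback.fst c (specAlg k A) ⁻¹ᵁ (M.C0 ⊓ M.C1)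
  rw [h]
  change (curveOver c A).basicOpen (appLEHom (pullback.fst c (specAlg k A)) le_rfl M.t) = _
  rw [← (pullback.fst c (specAlg k A)).app_eq_appLE.symm]
  rfl

theorem isUnit_tA : IsUnit (res (M.D01_le1 A) (M.tA A)) := by
  have h := RingedSpace.isUnit_res_basicOpen _ (M.tA A)
  have h2 := h.map (res (M.basicOpen_tA A).ge)
  change IsUnit (res (M.basicOpen_tA A).ge (res ((curveOver c A).basicOpen_le (M.tA A)) (M.tA A))) at h2
  rwa [res_res] at h2

variable {A}

theorem exists_mul_pow (g : Γ(curveOver c A, M.D01 A)) :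
    ∃ (n : ℕ) (x : Γ(curveOver c A, M.D1 A)),
      g * res (M.D01_le1 A) (M.tA A) ^ n = res (M.D01_le1 A) x := by
  have := (M.affineD1 A).isLocalization_basicOpen (M.tA A)
  obtain ⟨n, x, hx⟩ := IsLocalization.Away.surj (M.tA A) (res (M.basicOpen_tA A).le g)
  refine ⟨n, x, ?_⟩
  have h := congrArg (res (M.basicOpen_tA A).ge) hx
  rw [map_mul, map_pow] at h
  change res _ (res _ g) * res _ (res ((curveOver c A).basicOpen_le (M.tA A)) (M.tA A)) ^ n =
    res _ (res ((curveOver c A).basicOpen_le (M.tA A)) x) at h
  simpa using h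

/-- A function on the punctured neighbourhood without pole extends across the section. -/
theorem exists_extend (g : Γ(curveOver c A, M.D01 A)) (hg : PoleLE (M.exp01A A g) 0) :
    ∃ x, res (M.D01_le1 A) x = g := by
  obtain ⟨n, x, hx⟩ := M.exists_mul_pow g
  induction n generalizing x with
  | zero => exact ⟨x, by simpa using hx.symm⟩
  | succ n ih =>
    have he := congrArg (M.exp01A A) hx
    rw [map_mul, map_pow, exp01A_res1, exp01A_res1, exp1A_tA, HahnSeries.ofPowerSeries_X,
      HahnSeries.single_pow, one_pow] at he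
    have h0 : PowerSeries.constantCoeff (M.exp1A A x) = 0 := by
      have h1 := congrArg (fun y => HahnSeries.coeff y (0 : ℤ)) he
      simp only [nsmul_eq_mul, mul_one] at h1
      rw [HahnSeries.coeff_mul_single, mul_one] at h1
      rw [← PowerSeries.coeff_zero_eq_constantCoeff_apply,
        ← HahnSeries.ofPowerSeries_apply_coeff (Γ := ℤ), Nat.cast_zero, ← h1]
      exact hg _ (by push_cast; omega)
    obtain ⟨x', rfl⟩ := M.tA_dvd h0
    refine ih x' ((M.isUnit_tA A).mul_right_cancel ?_)
    rw [mul_assoc, ← pow_succ, hx, map_mul, mul_comm]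

include M in
/-- Functions on the whole curve are constants. -/
theorem eq_constHom_of_global (f : Γ(curveOver c A, ⊤)) : ∃ a : A, f = constHom c A ⊤ a := by
  let f0 := res (le_top : M.D0 A ≤ ⊤) f
  let f1 := res (le_top : M.D1 A ≤ ⊤) f
  have h01 : M.exp0A A f0 = HahnSeries.ofPowerSeries ℤ A (M.exp1A A f1) := by
    rw [← exp01A_res0, ← exp01A_res1, res_res, res_res]
  obtain ⟨r, hr⟩ := (M.coordFun A).surjective f0
  have hp : PoleLE (M.expansion.expA A r) 0 := by
    rw [← exp0A_coordFun, hr, h01]
    exact poleLE_ofPowerSeries _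
  obtain ⟨a, rfl⟩ := M.expansion.eq_algebraMap_of_no_pole A r hp
  rw [coordFun_const] at hr
  refine ⟨a, sections_ext (fun b : Bool => cond b (M.D0 A) (M.D1 A)) (fun x _ => ?_)
    fun b W hW hb => ?_⟩
  · rcases M.mem_D0_or_D1 A x with h | h
    · exact Opens.mem_iSup.mpr ⟨true, h⟩
    · exact Opens.mem_iSup.mpr ⟨false, h⟩
  · cases b
    · have h1 : f1 = constHom c A _ a := M.exp1A_injective <| by
        apply HahnSeries.ofPowerSeries_injective (Γ := ℤ)
        rw [← h01, ← hr, exp0A_constHom, exp1A_constHom, HahnSeries.ofPowerSeries_C]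
      have h2 := congrArg (res hb) h1
      simpa [f1, res_constHom] using h2
    · have h2 := congrArg (res hb) hr.symm
      simpa [f0, res_constHom] using h2

end CurveModel

end Fermat.Agent.Jac
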