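import Fermat.Agent.Jac.Model
import Fermat.Agent.Jac.Sections

/-!
The curve with coefficients in a `k`-algebra `A`, and the rings of functions on preimages of affine
opens of the curve.
-/

set_option autoImplicit false
set_option linter.unusedVariables false

noncomputable section

open CategoryTheory CategoryTheory.Limits AlgebraicGeometry TopologicalSpace Opposite NeronModelInfra
open scoped TensorProduct

namespace Fermat.Agent.Jac

universe u

variable {k : Type u} [Field k] {C : Scheme.{u}} (c : C ⟶ Spec (CommRingCat.of k))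

/-- Functions on an open of the curve, as a `k`-algebra. -/
def FunRing (c : C ⟶ Spec (CommRingCat.of k)) (U : C.Opens) : Type u := Γ(C, U)

instance (U : C.Opens) : CommRing (FunRing c U) := inferInstanceAs (CommRing Γ(C, U))

instance (U : C.Opens) : Algebra k (FunRing c U) :=
  RingHom.toAlgebra (R := k) (S := FunRing c U) (structureHom c U)

/-- Reading functions as elements of `FunRing`. -/
def toFunRing (U : C.Opens) : Γ(C, U) ≃+* FunRing c U := RingEquiv.refl _

/-- `Spec A ⟶ Spec k`. -/
def specAlg (k : Type u) [Field k] (A : Type u) [CommRing A] [Algebra k A] :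
    Spec (CommRingCat.of A) ⟶ Spec (CommRingCat.of k) :=
  Spec.map (CommRingCat.ofHom (algebraMap k A))

/-- `Spec` of an algebra map, over `Spec k`. -/
def specAlgHom {A B : Type u} [CommRing A] [Algebra k A] [CommRing B] [Algebra k B]
    (φ : A →ₐ[k] B) : SchemeHomOver (specAlg k B) (specAlg k A) :=
  ⟨Spec.map (CommRingCat.ofHom φ.toRingHom), by
    rw [specAlg, specAlg, ← Spec.map_comp, ← CommRingCat.ofHom_comp]
    congr 2
    exact φ.comp_algebraMap⟩

variable (A : Type u) [CommRing A] [Algebra k A]

/-- The curve with coefficients in `A`. -/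
abbrev curveOver : Scheme.{u} := pullback c (specAlg k A)

/-- The preimage of an open of the curve. -/
abbrev openOver (U : C.Opens) : (curveOver c A).Opens := pullback.fst c (specAlg k A) ⁻¹ᵁ U

theorem le_preimage_top {X Y : Scheme.{u}} (f : X ⟶ Y) (V : X.Opens) : V ≤ f ⁻¹ᵁ ⊤ :=
  fun _ _ => trivial

theorem appLEHom_specMap_top {R S : CommRingCat.{u}} (φ : R ⟶ S) (a : R) :
    appLEHom (Spec.map φ) (U := ⊤) (le_preimage_top _ ⊤) ((Scheme.ΓSpecIso R).inv a) =
      (Scheme.ΓSpecIso S).inv (φ a) := by
  have h := ConcreteCategory.congr_hom (Scheme.ΓSpecIso_inv_naturality φ) a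
  have e : (Spec.map φ).appLE ⊤ ⊤ (le_preimage_top _ ⊤) = (Spec.map φ).appTop := by
    exact ((Spec.map φ).app_eq_appLE (U := ⊤)).symm
  change (Spec.map φ).appLE ⊤ ⊤ _ _ = _
  rw [e]
  exact h.symm

/-- Constants on the curve over `A`. -/
def constHom (V : (curveOver c A).Opens) : A →+* Γ(curveOver c A, V) :=
  (appLEHom (pullback.snd c (specAlg k A)) (U := ⊤) (le_preimage_top _ V)).comp
    (Scheme.ΓSpecIso (CommRingCat.of A)).inv.hom

theorem res_constHom {V W : (curveOver c A).Opens} (h : W ≤ V) (a : A) :
    res h (constHom c A V a) = constHom c A W a := by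
  exact res_appLEHom _ _ h _

/-- Functions on `U` as functions on its preimage. -/
def liftFun (U : C.Opens) : FunRing c U →+* Γ(curveOver c A, openOver c A U) :=
  (appLEHom (pullback.fst c (specAlg k A)) le_rfl).comp
    ((toFunRing c U).symm : FunRing c U →+* Γ(C, U))

theorem liftFun_algebraMap (U : C.Opens) (a : k) :
    liftFun c A U (algebraMap k (FunRing c U) a) = constHom c A _ (algebraMap k A a) := by
  change appLEHom (pullback.fst c (specAlg k A)) le_rfl
      (appLEHom c (le_preimage_top c U) ((Scheme.ΓSpecIso (CommRingCat.of k)).inv a)) =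
    appLEHom (pullback.snd c (specAlg k A)) (le_preimage_top _ _)
      ((Scheme.ΓSpecIso (CommRingCat.of A)).inv ((CommRingCat.ofHom (algebraMap k A)) a))
  rw [← appLEHom_specMap_top, appLEHom_appLEHom, appLEHom_appLEHom]
  exact appLEHom_congr pullback.condition _ _

/-- `A ⊗ Γ(C, U) → Γ(C_A, U_A)`. -/
def tensorToFun (U : C.Opens) : A ⊗[k] FunRing c U →+* Γ(curveOver c A, openOver c A U) :=
  letI : Algebra k Γ(curveOver c A, openOver c A U) :=
    ((constHom c A _).comp (algebraMap k A)).toAlgebra
  (Algebra.TensorProduct.lift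
    ({ constHom c A (openOver c A U) with commutes' := fun _ => rfl } :
      A →ₐ[k] Γ(curveOver c A, openOver c A U))
    ({ liftFun c A U with commutes' := liftFun_algebraMap c A U } :
      FunRing c U →ₐ[k] Γ(curveOver c A, openOver c A U))
    fun _ _ => Commute.all _ _).toRingHom

theorem tensorToFun_tmul (U : C.Opens) (a : A) (f : FunRing c U) :
    tensorToFun c A U (a ⊗ₜ f) = constHom c A _ a * liftFun c A U f := rfl

/-- Functions on the preimage of an affine open are `A ⊗ Γ(C, U)`. -/
theorem tensorToFun_bijective {U : C.Opens} (hU : IsAffineOpen U) :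
    Function.Bijective (tensorToFun c A U) := by
  let iA := Scheme.ΓSpecIso (CommRingCat.of A)
  let ik := Scheme.ΓSpecIso (CommRingCat.of k)
  have H : IsPullback (pullback.fst c (specAlg k A)) (pullback.snd c (specAlg k A)) c (specAlg k A) :=
    IsPullback.of_hasPullback _ _
  have h0 := (isIso_pushoutSection_iff H (US := ⊤) (UT := ⊤) (UX := U) le_top le_top
    (UY := openOver c A U) (by simp)).mp
    (isIso_pushoutSection_of_isAffineOpen H _ _ _ (isAffineOpen_top _) (isAffineOpen_top _) hU)
  have h1 : IsPushout (CommRingCat.ofHom (algebraMap k (FunRing c U)))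
      (CommRingCat.ofHom (algebraMap k A)) (CommRingCat.ofHom (liftFun c A U))
      (CommRingCat.ofHom (constHom c A (openOver c A U))) := by
    refine h0.of_iso ik (Iso.refl _) iA (Iso.refl _) ?_ ?_ ?_ ?_
    · ext a
      change c.appLE ⊤ U _ a = c.appLE ⊤ U _ (ik.inv (ik.hom a))
      rw [Iso.hom_inv_id_apply]
    · rw [← cancel_mono iA.inv]
      ext a
      change iA.inv (iA.hom ((specAlg k A).appLE ⊤ ⊤ _ a)) =
        iA.inv ((CommRingCat.ofHom (algebraMap k A)) (ik.hom a))
      rw [Iso.hom_inv_id_apply, ← appLEHom_specMap_top (CommRingCat.ofHom (algebraMap k A)),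
        Iso.hom_inv_id_apply]
      rfl
    · rfl
    · ext a
      change (pullback.snd c (specAlg k A)).appLE ⊤ _ _ a =
        (pullback.snd c (specAlg k A)).appLE ⊤ _ _ (iA.inv (iA.hom a))
      rw [Iso.hom_inv_id_apply]
  have h2 := (CommRingCat.isPushout_tensorProduct k A (FunRing c U)).flip
  have key : CommRingCat.ofHom (tensorToFun c A U) = (h2.isoIsPushout _ _ h1).hom := by
    refine h2.hom_ext ?_ ?_
    · rw [IsPushout.inl_isoIsPushout_hom]
      ext f
      change tensorToFun c A U ((1 : A) ⊗ₜ f) = _
      rw [tensorToFun_tmul, map_one, one_mul]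
      rfl
    · rw [IsPushout.inr_isoIsPushout_hom]
      ext a
      change tensorToFun c A U (a ⊗ₜ (1 : FunRing c U)) = _
      rw [tensorToFun_tmul, map_one, mul_one]
      rfl
  have hb := ConcreteCategory.bijective_of_isIso (h2.isoIsPushout _ _ h1).hom
  rw [← key] at hb
  exact hb

theorem res_liftFun {U U' : C.Opens} (h : U' ≤ U) (f : FunRing c U) :
    res ((pullback.fst c (specAlg k A)).preimage_mono h) (liftFun c A U f) =
      liftFun c A U' (toFunRing c U' (res h ((toFunRing c U).symm f))) := by
  simp [liftFun]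

variable {A}
variable {B : Type u} [CommRing B] [Algebra k B]

/-- The map of curves induced by a coefficient change. -/
abbrev curveMap (φ : A →ₐ[k] B) : curveOver c B ⟶ curveOver c A :=
  AlgebraicGeometry.RelPicard.baseChangeSnd c (specAlgHom φ)

theorem curveMap_fst (φ : A →ₐ[k] B) :
    curveMap c φ ≫ pullback.fst c (specAlg k A) = pullback.fst c (specAlg k B) := by
  unfold curveMap AlgebraicGeometry.RelPicard.baseChangeSnd
  exact pullback.lift_fst _ _ _

theorem curveMap_snd (φ : A →ₐ[k] B) :
    curveMap c φ ≫ pullback.snd c (specAlg k A) =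
      pullback.snd c (specAlg k B) ≫ (specAlgHom φ).1 := by
  unfold curveMap AlgebraicGeometry.RelPicard.baseChangeSnd
  exact pullback.lift_snd _ _ _

theorem preimage_openOver (φ : A →ₐ[k] B) (U : C.Opens) :
    openOver c B U ≤ curveMap c φ ⁻¹ᵁ openOver c A U := by
  rw [← Scheme.Hom.comp_preimage, curveMap_fst]

theorem appLEHom_liftFun (φ : A →ₐ[k] B) (U : C.Opens) (f : FunRing c U) :
    appLEHom (curveMap c φ) (preimage_openOver c φ U) (liftFun c A U f) = liftFun c B U f := by
  change appLEHom _ _ (appLEHom (pullback.fst c (specAlg k A)) le_rfl ((toFunRing c U).symm f)) =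
    appLEHom (pullback.fst c (specAlg k B)) le_rfl ((toFunRing c U).symm f)
  rw [appLEHom_appLEHom]
  exact appLEHom_congr (curveMap_fst c φ) _ _

theorem appLEHom_constHom (φ : A →ₐ[k] B) {V : (curveOver c A).Opens}
    {W : (curveOver c B).Opens} (h : W ≤ curveMap c φ ⁻¹ᵁ V) (a : A) :
    appLEHom (curveMap c φ) h (constHom c A V a) = constHom c B W (φ a) := by
  change appLEHom _ _ (appLEHom (pullback.snd c (specAlg k A)) (le_preimage_top _ V)
      ((Scheme.ΓSpecIso (CommRingCat.of A)).inv a)) =
    appLEHom (pullback.snd c (specAlg k B)) (le_preimage_top _ W)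
      ((Scheme.ΓSpecIso (CommRingCat.of B)).inv ((CommRingCat.ofHom φ.toRingHom) a))
  rw [← appLEHom_specMap_top, appLEHom_appLEHom, appLEHom_appLEHom]
  exact appLEHom_congr (curveMap_snd c φ) _ _

end Fermat.Agent.Jac
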